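import Mathlib.Algebra.Algebra.ZMod
import Mathlib.LinearAlgebra.Dual.Lemmas
import Fermat.Agent.Ihara.RaiseBase

/-!
# Integral systems descend to the prime field

A system of integral eigenvalues occurring in `Hom_cl(Γ₀(N), k)` for a field `k` of
characteristic `3` occurs in `Hom_cl(Γ₀(N), 𝔽₃)`.
-/

noncomputable section

namespace Fermat.Agent.Raising.SquareRemoval

open scoped MatrixGroups
open CongruenceSubgroup Fermat.Agent.Grp Fermat.Agent.Hecke Fermat.Agent.Ihara

/-- Integral eigenvalues descend to the prime field. -/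
theorem exists_eigen_zmod {k : Type} [Field k] [CharP k 3] (N : ℕ) [NeZero N] (S : Set ℕ)
    (a : ℕ → ℤ) (x : clH k N) (hx : x ≠ 0)
    (h : ∀ (l : ℕ) [NeZero l], l ∈ S → clT k N l x = (a l : k) • x) :
    ∃ y : clH (ZMod 3) N, y ≠ 0 ∧
      ∀ (l : ℕ) [NeZero l], l ∈ S → clT (ZMod 3) N l y = (a l : ZMod 3) • y := by
  have : Fact (Nat.Prime 3) := ⟨Nat.prime_three⟩
  let : Algebra (ZMod 3) k := ZMod.algebra k 3
  obtain ⟨γ, hγ⟩ : ∃ γ, (x : Additive (Gamma0 N) →+ k) γ ≠ 0 := by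
    by_contra hc
    push Not at hc
    exact hx (Subtype.ext (AddMonoidHom.ext hc))
  obtain ⟨f, hf⟩ : ∃ f : Module.Dual (ZMod 3) k, f ((x : Additive (Gamma0 N) →+ k) γ) ≠ 0 := by
    by_contra hc
    push Not at hc
    exact hγ ((Module.forall_dual_apply_eq_zero_iff (ZMod 3) _).mp hc)
  refine ⟨⟨f.toAddMonoidHom.comp x, IsClHom.comp x.2 _⟩, fun h0 => hf
    (DFunLike.congr_fun (congrArg Subtype.val h0) γ), fun l _ hl => ?_⟩
  refine Subtype.ext ?_
  rw [clT_val]
  refine (transferHom_comp (upperConj N l) f.toAddMonoidHom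
    (x : Additive (Gamma0 N) →+ k)).trans ?_
  refine AddMonoidHom.ext fun δ => ?_
  show f (perTransfer N l k (x : Additive (Gamma0 N) →+ k) δ) =
    (a l : ZMod 3) * f ((x : Additive (Gamma0 N) →+ k) δ)
  rw [← clT_val, h l hl, Submodule.coe_smul, AddMonoidHom.smul_apply, smul_eq_mul,
    ← zsmul_eq_mul, map_zsmul, zsmul_eq_mul]

end Fermat.Agent.Raising.SquareRemoval
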