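import Mathlib.GroupTheory.Index
import Mathlib.LinearAlgebra.Quotient.Basic
import Mathlib.RepresentationTheory.Basic
import Mathlib.Tactic.LinearCombination
import Mathlib.Tactic.Module
import Fermat.Agent.Hecke.Transfer

/-!
# Transfer of crossed homomorphisms along a virtual endomorphism

For `c : H →* G` with `H ≤ G` of finite index, a representation `ρ` on `A` and a map `δ` of `A`
with `δ ∘ ρ (c h) = ρ h ∘ δ`, the operator `cocTransfer` acts on crossed homomorphisms and on
principal ones, hence on first cohomology.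
-/

noncomputable section

namespace Fermat.Agent.Raising.SquareRemoval

open Fermat.Agent.Hecke

variable {G : Type*} [Group G] {k : Type*} [CommRing k]
variable {A B : Type*} [AddCommGroup A] [Module k A] [AddCommGroup B] [Module k B]
variable (ρ : Representation k G A) (σ : Representation k G B)

/-- Crossed homomorphisms: `z (g * h) = z g + ρ g (z h)`. -/
def cocycles : Submodule k (G → A) where
  carrier := {z | ∀ g h, z (g * h) = z g + ρ g (z h)}
  zero_mem' := fun g h => by simp
  add_mem' := fun {z w} hz hw g h => by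
    simp only [Pi.add_apply, hz g h, hw g h, map_add]; abel
  smul_mem' := fun r z hz g h => by
    simp only [Pi.smul_apply, hz g h, map_smul, smul_add]

/-- The principal crossed homomorphism of an element. -/
def cobound : A →ₗ[k] G → A := LinearMap.pi fun g => ρ g - LinearMap.id

theorem cobound_apply (a : A) (g : G) : cobound ρ a g = ρ g a - a := rfl

/-- Principal crossed homomorphisms `g ↦ ρ g a - a`. -/
def coboundaries : Submodule k (G → A) := LinearMap.range (cobound ρ)

theorem mem_coboundaries {z : G → A} :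
    z ∈ coboundaries ρ ↔ ∃ a, ∀ g, z g = ρ g a - a := by
  constructor
  · rintro ⟨a, rfl⟩; exact ⟨a, fun g => rfl⟩
  · rintro ⟨a, ha⟩; exact ⟨a, funext fun g => (ha g).symm⟩

theorem rep_apply_mul (g h : G) (a : A) : ρ g (ρ h a) = ρ (g * h) a := by
  rw [map_mul, Module.End.mul_apply]

variable {ρ} in
theorem cocycles_apply_one {z : G → A} (hz : z ∈ cocycles ρ) : z 1 = 0 := by
  have h := hz 1 1
  simpa using h

variable {ρ} in
theorem cocycles_apply_inv {z : G → A} (hz : z ∈ cocycles ρ) (g : G) :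
    z g⁻¹ = -ρ g⁻¹ (z g) := by
  have h := hz g⁻¹ g
  rw [inv_mul_cancel, cocycles_apply_one hz] at h
  exact eq_neg_of_add_eq_zero_left h.symm

theorem coboundaries_le : coboundaries ρ ≤ cocycles ρ := by
  rintro z ⟨a, rfl⟩ g h
  simp [cobound_apply, Module.End.mul_apply]

variable {ρ σ}

/-- A map of coefficients preserves crossed homomorphisms. -/
theorem comp_mem_cocycles (f : A →ₗ[k] B) (hf : ∀ g a, f (ρ g a) = σ g (f a)) {z : G → A}
    (hz : z ∈ cocycles ρ) : f.compLeft G z ∈ cocycles σ := fun g h => by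
  simp [LinearMap.compLeft_apply, hz g h, hf]

/-- A map of coefficients preserves principal crossed homomorphisms. -/
theorem comp_mem_coboundaries (f : A →ₗ[k] B) (hf : ∀ g a, f (ρ g a) = σ g (f a)) {z : G → A}
    (hz : z ∈ coboundaries ρ) : f.compLeft G z ∈ coboundaries σ := by
  obtain ⟨a, rfl⟩ := hz
  exact ⟨f a, funext fun g => by simp [LinearMap.compLeft_apply, cobound_apply, hf]⟩

section Transfer

variable (ρ) {H : Subgroup G} [Fintype (G ⧸ H)] (c : H →* G) (t : G ⧸ H → G)
  (ht : ∀ q, (t q : G ⧸ H) = q) (δ : A →ₗ[k] A)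

/-- The transfer along `c : H → G` with representatives `t`, twisted by `δ`. -/
def cocTransfer : (G → A) →ₗ[k] (G → A) where
  toFun z g := ∑ q : G ⧸ H, ρ (t (g • q))
    (δ (z (c ⟨(t (g • q))⁻¹ * (g * t q), cocycle_mem t ht g q⟩)))
  map_add' z w := funext fun g => by simp [Finset.sum_add_distrib]
  map_smul' r z := funext fun g => by simp [Finset.smul_sum]

theorem cocTransfer_apply (z : G → A) (g : G) :
    cocTransfer ρ c t ht δ z g = ∑ q : G ⧸ H, ρ (t (g • q))
      (δ (z (c ⟨(t (g • q))⁻¹ * (g * t q), cocycle_mem t ht g q⟩))) := rfl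

variable {δ} (hδ : ∀ (h : H) (a : A), δ (ρ (c h) a) = ρ (h : G) (δ a))

omit [Fintype (G ⧸ H)] in
include hδ in
theorem rep_mul_apply (g g' : G) (q : G ⧸ H) (a : A) :
    ρ (t (g • (g' • q)))
        (δ (ρ (c ⟨(t (g • (g' • q)))⁻¹ * (g * t (g' • q)), cocycle_mem t ht g (g' • q)⟩) a)) =
      ρ g (ρ (t (g' • q)) (δ a)) := by
  rw [hδ]
  show ρ _ (ρ ((t (g • (g' • q)))⁻¹ * (g * t (g' • q))) (δ a)) = _
  rw [rep_apply_mul, mul_inv_cancel_left, rep_apply_mul]

include hδ in
/-- The transfer maps crossed homomorphisms to crossed homomorphisms. -/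
theorem cocTransfer_mem_cocycles {z : G → A} (hz : z ∈ cocycles ρ) :
    cocTransfer ρ c t ht δ z ∈ cocycles ρ := by
  intro g g'
  simp only [cocTransfer_apply]
  rw [map_sum, ← Equiv.sum_comp (MulAction.toPerm g') fun q => ρ (t (g • q))
    (δ (z (c ⟨(t (g • q))⁻¹ * (g * t q), cocycle_mem t ht g q⟩))), ← Finset.sum_add_distrib]
  refine Finset.sum_congr rfl fun q _ => ?_
  simp only [MulAction.toPerm_apply]
  have e : (⟨(t ((g * g') • q))⁻¹ * (g * g' * t q), cocycle_mem t ht (g * g') q⟩ : H) =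
      ⟨(t (g • (g' • q)))⁻¹ * (g * t (g' • q)), cocycle_mem t ht g (g' • q)⟩ *
        ⟨(t (g' • q))⁻¹ * (g' * t q), cocycle_mem t ht g' q⟩ :=
    Subtype.ext (by simp [mul_smul, mul_assoc])
  rw [e, map_mul, hz, map_add, map_add, mul_smul, rep_mul_apply ρ c t ht hδ]

include hδ in
/-- The transfer of the principal crossed homomorphism of `a` is that of `∑ q, ρ (t q) (δ a)`. -/
theorem cocTransfer_cobound (a : A) :
    cocTransfer ρ c t ht δ (cobound ρ a) = cobound ρ (∑ q : G ⧸ H, ρ (t q) (δ a)) := by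
  funext g
  have key : ∀ q : G ⧸ H, ρ (t (g • q))
      (δ (cobound ρ a (c ⟨(t (g • q))⁻¹ * (g * t q), cocycle_mem t ht g q⟩))) =
      ρ g (ρ (t q) (δ a)) - ρ (t (g • q)) (δ a) := fun q => by
    rw [cobound_apply, map_sub, map_sub, hδ]
    show ρ _ (ρ ((t (g • q))⁻¹ * (g * t q)) (δ a)) - _ = _
    rw [rep_apply_mul, mul_inv_cancel_left, rep_apply_mul]
  rw [cocTransfer_apply, Finset.sum_congr rfl fun q _ => key q, Finset.sum_sub_distrib,
    cobound_apply,
    map_sum]
  exact congrArg _ (Equiv.sum_comp (MulAction.toPerm g) fun q => ρ (t q) (δ a))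

include hδ in
/-- The transfer maps principal crossed homomorphisms to principal ones. -/
theorem cocTransfer_mem_coboundaries {z : G → A} (hz : z ∈ coboundaries ρ) :
    cocTransfer ρ c t ht δ z ∈ coboundaries ρ := by
  obtain ⟨a, rfl⟩ := hz
  exact ⟨_, (cocTransfer_cobound ρ c t ht hδ a).symm⟩

/-- Transfer commutes with equivariant maps. -/
theorem cocTransfer_comp (f : A →ₗ[k] B) (hf : ∀ g a, f (ρ g a) = σ g (f a)) (δ' : B →ₗ[k] B)
    (hfd : ∀ a, f (δ a) = δ' (f a)) (z : G → A) :
    f.compLeft G (cocTransfer ρ c t ht δ z) = cocTransfer σ c t ht δ' (f.compLeft G z) := by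
  funext g
  simp [LinearMap.compLeft_apply, cocTransfer_apply, map_sum, hf, hfd]

/-- An invariant element of a quotient has the Eisenstein eigenvalue: if the image of a crossed
homomorphism under an injection is principal, `T` acts on it by the degree. -/
theorem sub_natCard_smul_mem_coboundaries (f : A →ₗ[k] B) (hfi : Function.Injective f)
    (hf : ∀ g a, f (ρ g a) = σ g (f a)) (δ' : B →ₗ[k] B) (hfd : ∀ a, f (δ a) = δ' (f a))
    (hδ' : ∀ (h : H) (b : B), δ' (σ (c h) b) = σ (h : G) (δ' b))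
    (hsum : ∀ b : B, (∀ g, σ g b - b ∈ LinearMap.range f) →
      (∑ q : G ⧸ H, σ (t q) (δ' b)) - Nat.card (G ⧸ H) • b ∈ LinearMap.range f)
    {z : G → A} (hzB : f.compLeft G z ∈ coboundaries σ) :
    cocTransfer ρ c t ht δ z - (Nat.card (G ⧸ H) : k) • z ∈ coboundaries ρ := by
  obtain ⟨b, hb⟩ := hzB
  obtain ⟨w, hw⟩ := hsum b fun g => ⟨z g, (congrFun hb g).symm⟩
  refine ⟨w, funext fun g => hfi ?_⟩
  have h1 : f (cocTransfer ρ c t ht δ z g) =
      σ g (∑ q : G ⧸ H, σ (t q) (δ' b)) - ∑ q : G ⧸ H, σ (t q) (δ' b) := by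
    have := congrFun (cocTransfer_comp (σ := σ) ρ c t ht f hf δ' hfd z) g
    rw [← hb, cocTransfer_cobound σ c t ht hδ'] at this
    exact this
  have h2 : f (z g) = σ g b - b := (congrFun hb g).symm
  simp only [cobound_apply, Pi.sub_apply, Pi.smul_apply, map_sub, map_smul, hf, hw, h1, h2,
    ← Nat.cast_smul_eq_nsmul k, smul_sub]
  abel

end Transfer

end Fermat.Agent.Raising.SquareRemoval
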