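import Fermat.Agent.Grp.Index
import Fermat.Agent.Ihara.DegenMaps
import Fermat.Agent.Raising.SquareRemoval.Coeff

/-!
# Hecke operators on crossed homomorphisms of `Γ₀(M)`, and Shapiro's lemma for `P¹(ℤ/D)`

For `ℓ ≡ 1 (mod D)` the operator `T_ℓ` acts with any coefficients trivial on `Γ(D)`; evaluation at
the base coset turns classes with values in functions on `SL(2,ℤ) ⧸ Γ₀(D)` into homomorphisms of
`Γ₀(MD)`, compatibly with `T_ℓ`.
-/

noncomputable section

namespace Fermat.Agent.Raising.SquareRemoval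

open scoped MatrixGroups
open CongruenceSubgroup Fermat.Agent.Grp Fermat.Agent.Hecke Fermat.Agent.Ihara

variable {M D : ℕ}

/-- The inclusion `Γ₀(MD) → Γ₀(M)`. -/
def toLow (M D : ℕ) : Gamma0 (M * D) →* Gamma0 M :=
  Subgroup.inclusion (Ihara.Gamma0_le_mul M D)

theorem coe_toLow (g : Gamma0 (M * D)) : (toLow M D g : SL(2, ℤ)) = g := rfl

/-- `Γ(n)` lies in `Γ(m)` for `m ∣ n`. -/
theorem Gamma_le_Gamma_of_dvd {m n : ℕ} (h : m ∣ n) :
    CongruenceSubgroup.Gamma n ≤ CongruenceSubgroup.Gamma m := fun g hg => by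
  have hmn : (m : ℤ) ∣ n := Int.natCast_dvd_natCast.mpr h
  rw [Gamma_mem_iff_dvd] at hg ⊢
  exact ⟨hmn.trans hg.1, hmn.trans hg.2.1, hmn.trans hg.2.2.1, hmn.trans hg.2.2.2⟩

variable [NeZero M] {ℓ : ℕ} [NeZero ℓ]

theorem toLow_rep_bijective (hℓ : ℓ.Prime) (hn : ¬ ℓ ∣ M * D) :
    Function.Bijective fun i =>
      ((toLow M D (upperRepOpt hℓ hn i) : Gamma0 M) : Gamma0 M ⧸ upperSub M ℓ) := by
  have := (upperSub M ℓ).fintypeQuotientOfFiniteIndex
  refine (Fintype.bijective_iff_injective_and_card _).mpr ⟨fun i j h => ?_, ?_⟩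
  · refine (upperRepOpt_bijective hℓ hn).1 ?_
    simp only [QuotientGroup.eq] at h ⊢
    exact h
  · have hM : ¬ ℓ ∣ M := fun h => hn (h.mul_right D)
    rw [Fintype.card_option, Fintype.card_fin, ← Nat.card_eq_fintype_card, ← index_upperSub hℓ hM]
    rfl

/-- Representatives of `Γ₀(M) ⧸ upperSub` lying in `Γ₀(MD)`. -/
def lowSec (hℓ : ℓ.Prime) (hn : ¬ ℓ ∣ M * D) : Gamma0 M ⧸ upperSub M ℓ → Gamma0 M := fun q =>
  toLow M D (upperRepOpt hℓ hn ((Equiv.ofBijective _ (toLow_rep_bijective hℓ hn)).symm q))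

theorem lowSec_spec (hℓ : ℓ.Prime) (hn : ¬ ℓ ∣ M * D) (q : Gamma0 M ⧸ upperSub M ℓ) :
    (lowSec hℓ hn q : Gamma0 M ⧸ upperSub M ℓ) = q :=
  (Equiv.ofBijective _ (toLow_rep_bijective hℓ hn)).apply_symm_apply q

instance instFintypeUpperQuot : Fintype (Gamma0 M ⧸ upperSub M ℓ) :=
  (upperSub M ℓ).fintypeQuotientOfFiniteIndex

omit [NeZero M] [NeZero ℓ] in
/-- The operator `T_ℓ` has `ℓ + 1` terms. -/
theorem card_upperQuot (hℓ : ℓ.Prime) (hn : ¬ ℓ ∣ M * D) :
    Nat.card (Gamma0 M ⧸ upperSub M ℓ) = ℓ + 1 :=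
  index_upperSub hℓ fun h => hn (h.mul_right D)

section Hecke

variable {k : Type*} [CommRing k] {A : Type*} [AddCommGroup A] [Module k A]
  (ρ : Representation k SL(2, ℤ) A)

variable (M) in
/-- The restriction to `Γ₀(M)`. -/
abbrev resLow : Representation k (Gamma0 M) A := ρ.comp (Gamma0 M).subtype

/-- `T_ℓ` on functions of `Γ₀(M)`. -/
def heckeCoc (hℓ : ℓ.Prime) (hn : ¬ ℓ ∣ M * D) : (Gamma0 M → A) →ₗ[k] (Gamma0 M → A) :=
  cocTransfer (resLow M ρ) (upperConj M ℓ) (lowSec hℓ hn) (lowSec_spec hℓ hn) LinearMap.id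

omit [NeZero M] in
/-- For `ℓ ≡ 1 (mod D)` conjugation by `diag(1,ℓ)` is invisible on representations trivial on
`Γ(D)`. -/
theorem rep_upperConj (hρ : ∀ g ∈ CongruenceSubgroup.Gamma D, ρ g = 1) (hD : (D : ℤ) ∣ (ℓ : ℤ) - 1)
    (h : upperSub M ℓ) (a : A) :
    ρ (upperConj M ℓ h : SL(2, ℤ)) a = ρ ((h : Gamma0 M) : SL(2, ℤ)) a := by
  have e : ((h : Gamma0 M) : SL(2, ℤ))⁻¹ * (upperConj M ℓ h : SL(2, ℤ)) ∈
      CongruenceSubgroup.Gamma D := by
    have hcast : (ℓ : ZMod D) = 1 := by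
      rw [← sub_eq_zero]
      exact_mod_cast (ZMod.intCast_zmod_eq_zero_iff_dvd _ _).mpr hD
    obtain ⟨m, hm⟩ := mem_upperSub.mp h.2
    have hℓ0 : (ℓ : ℤ) ≠ 0 := by exact_mod_cast NeZero.ne ℓ
    have e0 : ((upperConj M ℓ h : SL(2, ℤ)) : Matrix (Fin 2) (Fin 2) ℤ).map ((↑) : ℤ → ZMod D) =
        (((h : Gamma0 M) : SL(2, ℤ)) : Matrix (Fin 2) (Fin 2) ℤ).map ((↑) : ℤ → ZMod D) := by
      rw [upperConj_val]
      ext i j
      fin_cases i <;> fin_cases j <;>
        simp [hcast, hm, Int.mul_ediv_cancel_left _ hℓ0]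
    rw [Gamma_mem']
    rw [map_mul, map_inv, inv_mul_eq_one]
    exact Subtype.ext e0.symm
  have h1 := hρ _ e
  rw [map_mul] at h1
  calc ρ (upperConj M ℓ h : SL(2, ℤ)) a
      = ρ ((h : Gamma0 M) : SL(2, ℤ)) ((ρ ((h : Gamma0 M) : SL(2, ℤ))⁻¹ *
          ρ (upperConj M ℓ h : SL(2, ℤ))) a) := by
        rw [Module.End.mul_apply, rep_apply_mul, mul_inv_cancel, map_one, Module.End.one_apply]
    _ = _ := by rw [h1, Module.End.one_apply]

end Hecke

section Shapiro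

variable (k : Type) [CommRing k]

/-- The permutation representation on functions on `SL(2,ℤ) ⧸ Γ₀(D)`. -/
def permRep (D : ℕ) : Representation k SL(2, ℤ) ((SL(2, ℤ) ⧸ Gamma0 D) → k) where
  toFun g := LinearMap.funLeft k k fun x => g⁻¹ • x
  map_one' := LinearMap.ext fun f => funext fun x => by simp [LinearMap.funLeft_apply]
  map_mul' g h := LinearMap.ext fun f => funext fun x => by
    simp [LinearMap.funLeft_apply, mul_smul]

variable {k}

theorem permRep_apply (g : SL(2, ℤ)) (f : (SL(2, ℤ) ⧸ Gamma0 D) → k) (x : SL(2, ℤ) ⧸ Gamma0 D) :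
    permRep k D g f x = f (g⁻¹ • x) := rfl

theorem permRep_of_mem_Gamma {g : SL(2, ℤ)} (hg : g ∈ CongruenceSubgroup.Gamma D) :
    permRep k D g = 1 := by
  refine LinearMap.ext fun f => funext fun x => congrArg f ?_
  induction x using QuotientGroup.induction_on with
  | _ y =>
    show g⁻¹ • (y : SL(2, ℤ) ⧸ Gamma0 D) = y
    rw [MulAction.Quotient.smul_coe, smul_eq_mul, QuotientGroup.eq]
    refine Gamma_le_Gamma0 D ?_
    have := (Gamma_normal D).conj_mem g hg y⁻¹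
    simpa [mul_assoc] using this

theorem permRep_neg_one : permRep k D (-1) = 1 := by
  refine LinearMap.ext fun f => funext fun x => congrArg f ?_
  have h : (-1 : SL(2, ℤ))⁻¹ = -1 := inv_eq_of_mul_eq_one_right (by simp)
  rw [h]
  exact neg_one_smul_coset (neg_one_mem_Gamma0 D) x

omit [NeZero M] in
theorem exists_low_smul (hMD : Nat.Coprime M D) (x : SL(2, ℤ) ⧸ Gamma0 D) :
    ∃ γ : Gamma0 M, x = (γ : SL(2, ℤ)) • baseCoset (Gamma0 D) := by
  have := Gamma_normal D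
  have h : x.out ∈ CongruenceSubgroup.Gamma M ⊔ CongruenceSubgroup.Gamma D := by
    rw [Gamma_sup_Gamma_eq_top hMD]; trivial
  obtain ⟨a, ha, b, hb, hab⟩ := Subgroup.mem_sup_of_normal_right.mp h
  refine ⟨⟨a, Gamma_le_Gamma0 M ha⟩, ?_⟩
  conv_lhs => rw [← out_smul_baseCoset x, ← hab]
  rw [mul_smul, (smul_baseCoset_eq b).mpr (Gamma_le_Gamma0 D hb)]

omit [NeZero M] in
theorem fixes_base (h : Gamma0 (M * D)) :
    ((h : SL(2, ℤ)))⁻¹ • baseCoset (Gamma0 D) = baseCoset (Gamma0 D) :=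
  (smul_baseCoset_eq _).mpr (inv_mem (Gamma0_mem_iff_dvd.mpr
    ((dvd_mul_left (D : ℤ) M).trans (by exact_mod_cast Gamma0_dvd h))))

/-- Evaluation at the base coset. -/
def evalBase : cocycles (resLow M (permRep k D)) →ₗ[k] (Additive (Gamma0 (M * D)) →+ k) where
  toFun z := AddMonoidHom.mk' (fun h => z.1 (toLow M D h.toMul) (baseCoset (Gamma0 D))) fun g h =>
    by
    rw [toMul_add, map_mul, z.2, Pi.add_apply]
    exact congrArg (_ + ·) (congrArg (z.1 _) (fixes_base g.toMul))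
  map_add' _ _ := rfl
  map_smul' _ _ := rfl

omit [NeZero M] in
theorem evalBase_apply (z : cocycles (resLow M (permRep k D))) (h : Gamma0 (M * D)) :
    evalBase z (Additive.ofMul h) = z.1 (toLow M D h) (baseCoset (Gamma0 D)) := rfl

omit [NeZero M] in
/-- **Shapiro: injectivity.** -/
theorem mem_coboundaries_of_evalBase (hMD : Nat.Coprime M D)
    {z : cocycles (resLow M (permRep k D))} (hz : evalBase z = 0) :
    z.1 ∈ coboundaries (resLow M (permRep k D)) := by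
  choose γ hγ using exists_low_smul (M := M) hMD
  refine (mem_coboundaries _).mpr ⟨fun x => -z.1 (γ x) x, fun g => funext fun x => ?_⟩
  show z.1 g x = -z.1 (γ ((g : SL(2, ℤ))⁻¹ • x)) ((g : SL(2, ℤ))⁻¹ • x) - -z.1 (γ x) x
  set y : SL(2, ℤ) ⧸ Gamma0 D := (g : SL(2, ℤ))⁻¹ • x with hy
  have hfix : ((γ x)⁻¹ * (g * γ y) : Gamma0 M).1 • baseCoset (Gamma0 D) = baseCoset (Gamma0 D) := by
    rw [Subgroup.coe_mul, Subgroup.coe_mul, mul_smul, mul_smul, ← hγ, hy, smul_inv_smul,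
      InvMemClass.coe_inv, inv_smul_eq_iff, ← hγ]
  have hmem : ((γ x)⁻¹ * (g * γ y) : Gamma0 M).1 ∈ Gamma0 (M * D) := by
    rw [Gamma0_mem_iff_dvd]
    push_cast
    refine IsCoprime.mul_dvd (by exact_mod_cast Nat.isCoprime_iff_coprime.mpr hMD)
      (Gamma0_dvd ((γ x)⁻¹ * (g * γ y))) ?_
    exact Gamma0_mem_iff_dvd.mp ((smul_baseCoset_eq _).mp hfix)
  have h0 : z.1 ((γ x)⁻¹ * (g * γ y)) (baseCoset (Gamma0 D)) = 0 :=
    DFunLike.congr_fun hz (Additive.ofMul ⟨_, hmem⟩)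
  have h1 := congrFun (z.2 (γ x) ((γ x)⁻¹ * (g * γ y))) x
  rw [mul_inv_cancel_left, z.2] at h1
  simp only [Pi.add_apply, MonoidHom.comp_apply, Subgroup.coe_subtype, permRep_apply] at h1
  have hx : (γ x : SL(2, ℤ))⁻¹ • x = baseCoset (Gamma0 D) := by
    rw [inv_smul_eq_iff]; exact hγ x
  rw [hx, h0, add_zero, ← hy] at h1
  linear_combination h1

/-- Evaluation intertwines `T_ℓ`. -/
theorem evalBase_heckeCoc [NeZero D] (hℓ : ℓ.Prime) (hn : ¬ ℓ ∣ M * D)
    (z : cocycles (resLow M (permRep k D)))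
    (hT : heckeCoc (permRep k D) hℓ hn z.1 ∈ cocycles (resLow M (permRep k D))) :
    evalBase ⟨_, hT⟩ = perTransfer (M * D) ℓ k (evalBase z) := by
  refine addChar_ext fun h => ?_
  set r := upperRepOpt hℓ hn
  let e := Equiv.ofBijective _ (toLow_rep_bijective hℓ hn)
  have hsec : ∀ i, lowSec hℓ hn (e i) = toLow M D (r i) := fun i => by
    show toLow M D (r (e.symm (e i))) = _
    rw [e.symm_apply_apply]
  let σ : Option (Fin ℓ) → Option (Fin ℓ) := fun i => e.symm (toLow M D h • e i)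
  have hσ : ∀ i, (r (σ i))⁻¹ * (h * r i) ∈ upperSub (M * D) ℓ := fun i => by
    have := cocycle_mem (lowSec hℓ hn) (lowSec_spec hℓ hn) (toLow M D h) (e i)
    rw [hsec, show lowSec hℓ hn (toLow M D h • e i) = toLow M D (r (σ i)) from rfl] at this
    exact this
  rw [perTransfer,
    transferHom_apply_reps (upperConj (M * D) ℓ) _ r (upperRepOpt_bijective hℓ hn) h σ hσ,
    evalBase_apply]
  show cocTransfer (resLow M (permRep k D)) (upperConj M ℓ) (lowSec hℓ hn) (lowSec_spec hℓ hn)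
    LinearMap.id z.1 (toLow M D h) (baseCoset (Gamma0 D)) = _
  rw [cocTransfer_apply, Finset.sum_apply, ← Equiv.sum_comp e]
  refine Finset.sum_congr rfl fun i _ => ?_
  have hs : lowSec hℓ hn (toLow M D h • e i) = toLow M D (r (σ i)) := rfl
  simp only [evalBase_apply, MonoidHom.comp_apply, Subgroup.coe_subtype, permRep_apply,
    LinearMap.id_apply]
  rw [show ((lowSec hℓ hn (toLow M D h • e i) : Gamma0 M) : SL(2, ℤ))⁻¹ •
      baseCoset (Gamma0 D) = baseCoset (Gamma0 D) from by rw [hs, coe_toLow]; exact fixes_base _]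
  refine congrFun (congrArg z.1 (Subtype.ext (Subtype.ext ?_))) _
  rw [coe_toLow, upperConj_val, upperConj_val]
  simp only [hs, hsec]
  rfl

end Shapiro

end Fermat.Agent.Raising.SquareRemoval
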