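import Fermat.Agent.Raising.SquareRemoval.Main

/-!
# The span of the translates of `Γ₀(D)`-fixed vectors is a quotient of copies of `k[P¹(ℤ/D)]`

This presents the residual coefficient module as required for the passage to level `MD`.
-/

noncomputable section

namespace Fermat.Agent.Raising.SquareRemoval

open scoped MatrixGroups
open CongruenceSubgroup

section CommRing

variable {k : Type} [CommRing k] {V : Type} [AddCommGroup V] [Module k V]
  (ρ : Representation k SL(2, ℤ) V) (D : ℕ)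

/-- The span of the translates of the fixed vectors of `Γ₀(D)`. -/
def transSpan : Submodule k V :=
  Submodule.span k {x | ∃ (h : SL(2, ℤ)) (v : V), (∀ g ∈ Gamma0 D, ρ g v = v) ∧ ρ h v = x}

theorem rep_mem_transSpan (g : SL(2, ℤ)) {x : V} (hx : x ∈ transSpan ρ D) :
    ρ g x ∈ transSpan ρ D := by
  refine Submodule.span_induction ?_ (by simp) (fun a b _ _ ha hb => ?_)
    (fun c a _ ha => ?_) hx
  · rintro _ ⟨h, v, hv, rfl⟩
    refine Submodule.subset_span ⟨g * h, v, hv, ?_⟩
    rw [map_mul, Module.End.mul_apply]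
  · rw [map_add]; exact add_mem ha hb
  · rw [map_smul]; exact Submodule.smul_mem _ c ha

theorem mem_transSpan_of_fixed {v : V} (hv : ∀ g ∈ Gamma0 D, ρ g v = v) : v ∈ transSpan ρ D :=
  Submodule.subset_span ⟨1, v, hv, by rw [map_one, Module.End.one_apply]⟩

/-- The restriction of the representation to the span. -/
def transRep : Representation k SL(2, ℤ) (transSpan ρ D) where
  toFun g := (ρ g).restrict fun _ hx => rep_mem_transSpan ρ D g hx
  map_one' := LinearMap.ext fun x => Subtype.ext (by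
    rw [LinearMap.coe_restrict_apply, map_one]; rfl)
  map_mul' g h := LinearMap.ext fun x => Subtype.ext (by
    rw [LinearMap.coe_restrict_apply, map_mul]; rfl)

theorem coe_transRep (g : SL(2, ℤ)) (x : transSpan ρ D) : (transRep ρ D g x : V) = ρ g x := rfl

/-- The vectors fixed by `Γ₀(D)`. -/
def fixedSub : Submodule k V := ⨅ g ∈ Gamma0 D, LinearMap.eqLocus (ρ g) LinearMap.id

theorem mem_fixedSub {v : V} : v ∈ fixedSub ρ D ↔ ∀ g ∈ Gamma0 D, ρ g v = v := by
  simp [fixedSub, LinearMap.mem_eqLocus]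

/-- The index set of the cover: that of a basis of the fixed vectors. -/
abbrev FixedIdx : Type := Fin (Module.finrank k (fixedSub ρ D))

end CommRing

section Field

variable {k : Type} [Field k] {V : Type} [AddCommGroup V] [Module k V] [FiniteDimensional k V]
  (ρ : Representation k SL(2, ℤ) V) (D : ℕ) [NeZero D]

/-- The fixed vectors of the cover. -/
def fixedVec (j : FixedIdx ρ D) : V := (Module.finBasis k (fixedSub ρ D) j).1

omit [NeZero D] in
theorem fixedVec_fixed (j : FixedIdx ρ D) : ∀ g ∈ Gamma0 D, ρ g (fixedVec ρ D j) = fixedVec ρ D j :=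
  (mem_fixedSub ρ D).mp (Module.finBasis k (fixedSub ρ D) j).2

/-- The covering map `f ↦ ∑ f j x • x • v j`, `v` the basis of fixed vectors. -/
def transCover : (FixedIdx ρ D → (SL(2, ℤ) ⧸ Gamma0 D) → k) →ₗ[k] transSpan ρ D :=
  haveI := Fintype.ofFinite (SL(2, ℤ) ⧸ Gamma0 D)
  ∑ j : FixedIdx ρ D, ∑ x : SL(2, ℤ) ⧸ Gamma0 D,
    LinearMap.smulRight
      ((LinearMap.proj x : ((SL(2, ℤ) ⧸ Gamma0 D) → k) →ₗ[k] k).comp (LinearMap.proj j))
      (transRep ρ D x.out ⟨fixedVec ρ D j, mem_transSpan_of_fixed ρ D (fixedVec_fixed ρ D j)⟩)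

omit [FiniteDimensional k V] [NeZero D] in
theorem rep_out_mul (g : SL(2, ℤ)) {v : V} (hv : ∀ h ∈ Gamma0 D, ρ h v = v) :
    ρ (Quotient.out (g : SL(2, ℤ) ⧸ Gamma0 D)) v = ρ g v := by
  obtain ⟨h, hh⟩ := QuotientGroup.mk_out_eq_mul (Gamma0 D) g
  rw [hh, map_mul, Module.End.mul_apply, hv _ h.2]

theorem coe_transCover [Fintype (SL(2, ℤ) ⧸ Gamma0 D)]
    (f : FixedIdx ρ D → (SL(2, ℤ) ⧸ Gamma0 D) → k) :
    (transCover ρ D f : V) = ∑ j, ∑ x, f j x • ρ x.out (fixedVec ρ D j) := by
  simp only [transCover, LinearMap.sum_apply, AddSubmonoidClass.coe_finsetSum]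
  refine Finset.sum_congr rfl fun j _ => Finset.sum_congr (by ext; simp) fun x _ => ?_
  rfl

/-- The covering map is equivariant. -/
theorem transCover_equivariant (g : SL(2, ℤ)) (f : FixedIdx ρ D → (SL(2, ℤ) ⧸ Gamma0 D) → k) :
    transCover ρ D (permRepPi k D (FixedIdx ρ D) g f) = transRep ρ D g (transCover ρ D f) := by
  have := Fintype.ofFinite (SL(2, ℤ) ⧸ Gamma0 D)
  refine Subtype.ext ?_
  rw [coe_transRep, coe_transCover, coe_transCover, map_sum]
  refine Finset.sum_congr rfl fun j _ => ?_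
  rw [map_sum, ← Equiv.sum_comp (MulAction.toPerm g) (fun x => permRepPi k D _ g f j x • _)]
  refine Finset.sum_congr rfl fun x _ => ?_
  rw [map_smul, MulAction.toPerm_apply, permRepPi_apply, permRep_apply, inv_smul_smul,
    ← Module.End.mul_apply, ← map_mul]
  congr 1
  induction x using QuotientGroup.induction_on with
  | _ y =>
  rw [MulAction.Quotient.smul_coe, rep_out_mul ρ D _ (fixedVec_fixed ρ D j), smul_eq_mul]
  obtain ⟨h, hh⟩ := QuotientGroup.mk_out_eq_mul (Gamma0 D) y
  rw [hh, ← mul_assoc, map_mul ρ (g * y) (h : SL(2, ℤ)), Module.End.mul_apply,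
    fixedVec_fixed ρ D j _ h.2]

/-- The translates of the fixed vectors are covered by copies of `k[P¹(ℤ/D)]`. -/
theorem transCover_surjective : Function.Surjective (transCover ρ D) := by
  have := Fintype.ofFinite (SL(2, ℤ) ⧸ Gamma0 D)
  classical
  rintro ⟨y, hy⟩
  suffices h : y ∈ LinearMap.range ((transSpan ρ D).subtype.comp (transCover ρ D)) by
    obtain ⟨f, hf⟩ := h
    exact ⟨f, Subtype.ext hf⟩
  refine (Submodule.span_le.mpr ?_) hy
  rintro _ ⟨h, v, hv, rfl⟩
  set b := Module.finBasis k (fixedSub ρ D)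
  set w : fixedSub ρ D := ⟨v, (mem_fixedSub ρ D).mpr hv⟩
  refine ⟨fun j => Pi.single (h : SL(2, ℤ) ⧸ Gamma0 D) (b.repr w j), ?_⟩
  rw [LinearMap.comp_apply, Submodule.subtype_apply, coe_transCover]
  have hsum : v = ∑ j, b.repr w j • fixedVec ρ D j := by
    have e : (fixedSub ρ D).subtype w = (fixedSub ρ D).subtype (∑ j, b.repr w j • b j) := by
      rw [b.sum_repr w]
    rw [map_sum] at e
    exact e.trans (Finset.sum_congr rfl fun j _ => map_smul _ _ _)
  conv_rhs => rw [hsum, map_sum]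
  refine Finset.sum_congr rfl fun j _ => ?_
  rw [Finset.sum_eq_single (h : SL(2, ℤ) ⧸ Gamma0 D), Pi.single_eq_same, map_smul,
    rep_out_mul ρ D h (fixedVec_fixed ρ D j)]
  · intro x _ hx; rw [Pi.single_eq_of_ne hx, zero_smul]
  · simp

end Field

end Fermat.Agent.Raising.SquareRemoval
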