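import Mathlib.Tactic.LinearCombination
import Fermat.Agent.Grp.Interface
import Fermat.Agent.Hecke.UpperReps

/-!
# `T_ℓ - (ℓ + 1)` maps all characters of `Γ₀(N)` into the closed ones

When `ℓ ≡ 1 (mod N)`, `ℓ = 1` and `2` is a unit in the coefficients, and `Γ₀(N)` has no element of
order three modulo `±1`.
-/

noncomputable section

namespace Fermat.Agent.Raising.SquareRemoval

open scoped MatrixGroups
open CongruenceSubgroup ModularGroup Fermat.Agent.Grp Fermat.Agent.Hecke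

variable {N : ℕ}

theorem conj_T_zpow_val (g : SL(2, ℤ)) (m : ℤ) :
    (g * T ^ m * g⁻¹).1 = !![1 - m * g 0 0 * g 1 0, m * g 0 0 * g 0 0;
      -(m * g 1 0 * g 1 0), 1 + m * g 0 0 * g 1 0] := by
  have h := Grp.det_eq g
  ext i j
  fin_cases i <;> fin_cases j <;>
    simp [coe_T_zpow, Matrix.mul_apply, Fin.sum_univ_two, Matrix.SpecialLinearGroup.coe_inv,
      Matrix.adjugate_fin_two] <;> first | linear_combination h | ring

/-- The value of a character at `g * T ^ m * g⁻¹` depends only on `m` and the first column of `g`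
modulo `N`. -/
theorem apply_conj_eq {k : Type*} [AddCommGroup k] (φ : Additive (Gamma0 N) →+ k)
    {g g₂ : SL(2, ℤ)} (ha : (N : ℤ) ∣ g₂ 0 0 - g 0 0) (hc : (N : ℤ) ∣ g₂ 1 0 - g 1 0) (m : ℤ)
    (h : g * T ^ m * g⁻¹ ∈ Gamma0 N) (h₂ : g₂ * T ^ m * g₂⁻¹ ∈ Gamma0 N) :
    φ (Additive.ofMul ⟨_, h₂⟩) = φ (Additive.ofMul ⟨_, h⟩) := by
  set u : ℤ := g 1 1 * g₂ 0 1 - g 0 1 * g₂ 1 1 with hu
  have hδ : g₂ * T ^ (-u) * g⁻¹ ∈ Gamma0 N := by
    rw [Gamma0_mem_iff_dvd]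
    obtain ⟨α, hα⟩ := ha
    obtain ⟨κ, hκ⟩ := hc
    have e : (g₂ * T ^ (-u) * g⁻¹).1 1 0 = g₂ 1 0 * g 1 1 + (g₂ 1 0 * u - g₂ 1 1) * g 1 0 := by
      simp [coe_T_zpow, Matrix.mul_apply, Fin.sum_univ_two, Matrix.SpecialLinearGroup.coe_inv,
        Matrix.adjugate_fin_two]
      ring
    rw [e, hu]
    have h1 := Grp.det_eq g
    have h2 := Grp.det_eq g₂
    rw [sub_eq_iff_eq_add] at hα hκ
    rw [hκ] at h2 ⊢
    rw [hα] at h2
    refine ⟨κ * g 1 1 + g 1 0 * (κ * (g 1 1 * g₂ 0 1 - g 0 1 * g₂ 1 1)) +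
      g 1 0 * g 1 1 * (α * g₂ 1 1 - κ * g₂ 0 1), ?_⟩
    linear_combination g 1 0 * g 1 1 * (-h2) + g 1 0 * g₂ 1 1 * h1
  have e : (⟨_, h₂⟩ : Gamma0 N) = ⟨_, hδ⟩ * ⟨_, h⟩ * (⟨_, hδ⟩ : Gamma0 N)⁻¹ :=
    Subtype.ext (by simp only [Subgroup.coe_mul, InvMemClass.coe_inv]; group)
  rw [e, ofMul_mul, ofMul_mul, map_add, map_add, ofMul_inv, map_neg]
  abel

variable [NeZero N] {ℓ : ℕ} [NeZero ℓ]

omit [NeZero N] in
theorem apply_neg_one {k : Type} [CommRing k] (h2 : IsUnit (2 : k))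
    (φ : Additive (Gamma0 N) →+ k) (h : (-1 : SL(2, ℤ)) ∈ Gamma0 N) :
    φ (Additive.ofMul ⟨_, h⟩) = 0 := by
  have e : (⟨_, h⟩ : Gamma0 N) * ⟨_, h⟩ = 1 := Subtype.ext (by simp)
  have e2 := congrArg (fun x => φ (Additive.ofMul x)) e
  simp only [ofMul_mul, map_add, ofMul_one, map_zero, ← two_mul] at e2
  exact h2.mul_right_eq_zero.mp e2

omit [NeZero N] in
theorem mul_apply_eq_zero_of_pow {k : Type} [CommRing k] (φ : Additive (Gamma0 N) →+ k)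
    {x : Gamma0 N} {n : ℕ} (h : x ^ n = 1) : (n : k) * φ (Additive.ofMul x) = 0 := by
  rw [← nsmul_eq_mul, ← map_nsmul, ← ofMul_pow, h, ofMul_one, map_zero]

/-- For `ℓ = 1` in the coefficients, the transfer at the `ℓ`-th power of a parabolic element is
`ℓ + 1` times the value at the element. -/
theorem perTransfer_parabolic {k : Type} [CommRing k] (hℓ : ℓ.Prime) (hN : (N : ℤ) ∣ (ℓ : ℤ) - 1)
    (hℓN : ¬ ℓ ∣ N) (h1 : (ℓ : k) = 1) (φ : Additive (Gamma0 N) →+ k) {g : SL(2, ℤ)} {n : ℤ}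
    (hg : g * T ^ n * g⁻¹ ∈ Gamma0 N) :
    perTransfer N ℓ k φ (Additive.ofMul (⟨_, hg⟩ ^ ℓ)) =
      ((ℓ + 1 : ℕ) : k) * φ (Additive.ofMul ⟨_, hg⟩) := by
  set r := upperRepOpt hℓ hℓN
  have hval : ∀ i, ((r i)⁻¹ * (⟨_, hg⟩ ^ ℓ * r i) : Gamma0 N).1 =
      ((r i)⁻¹ : SL(2, ℤ)) * g * T ^ (n * ℓ) * (((r i)⁻¹ : SL(2, ℤ)) * g)⁻¹ := fun i => by
    simp only [Subgroup.coe_mul, SubmonoidClass.coe_pow, InvMemClass.coe_inv, conj_pow,
      ← zpow_natCast (T ^ n), ← zpow_mul]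
    group
  have hup : ∀ i, (r i)⁻¹ * (⟨_, hg⟩ ^ ℓ * r i) ∈ upperSub N ℓ := fun i => by
    rw [mem_upperSub, hval, conj_T_zpow_val]
    simp only [Matrix.of_apply, Matrix.cons_val', Matrix.cons_val_zero, Matrix.cons_val_one,
      Matrix.cons_val_fin_one]
    exact dvd_mul_of_dvd_left (dvd_mul_of_dvd_left (dvd_mul_left _ _) _) _
  rw [perTransfer,
    transferHom_apply_reps (upperConj N ℓ) φ r (upperRepOpt_bijective hℓ hℓN) _ id hup]
  have key : ∀ i, φ (Additive.ofMul (upperConj N ℓ ⟨_, hup i⟩)) = φ (Additive.ofMul ⟨_, hg⟩) := by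
    intro i
    set g' : SL(2, ℤ) := ((r i)⁻¹ : SL(2, ℤ)) * g with hg'
    have hℓ0 : (ℓ : ℤ) ≠ 0 := by exact_mod_cast NeZero.ne ℓ
    have hcop : IsCoprime (g' 0 0) (g' 1 0) :=
      ⟨g' 1 1, -g' 0 1, by linear_combination Grp.det_eq g'⟩
    have hg'mem : g' * T ^ n * g'⁻¹ ∈ Gamma0 N := by
      have e : g' * T ^ n * g'⁻¹ = ((r i)⁻¹ * ⟨_, hg⟩ * r i : Gamma0 N) := by
        simp only [hg', Subgroup.coe_mul, InvMemClass.coe_inv]; group
      rw [e]; exact SetLike.coe_mem _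
    have hbase : φ (Additive.ofMul ⟨_, hg'mem⟩) = φ (Additive.ofMul ⟨_, hg⟩) := by
      have e : (⟨_, hg'mem⟩ : Gamma0 N) = (r i)⁻¹ * ⟨_, hg⟩ * r i :=
        Subtype.ext (by simp only [hg', Subgroup.coe_mul, InvMemClass.coe_inv]; group)
      rw [e, ofMul_mul, ofMul_mul, map_add, map_add, ofMul_inv, map_neg]
      abel
    have hU := upperConj_val N ℓ ⟨_, hup i⟩
    rw [hval, ← hg', conj_T_zpow_val] at hU
    simp only [Matrix.of_apply, Matrix.cons_val', Matrix.cons_val_zero, Matrix.cons_val_one,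
      Matrix.cons_val_fin_one] at hU
    rw [show n * (ℓ : ℤ) * g' 0 0 * g' 0 0 / ℓ = n * g' 0 0 * g' 0 0 by
      rw [show n * (ℓ : ℤ) * g' 0 0 * g' 0 0 = ℓ * (n * g' 0 0 * g' 0 0) by ring,
        Int.mul_ediv_cancel_left _ hℓ0]] at hU
    obtain ⟨d, hd⟩ := hN
    by_cases hdvd : (ℓ : ℤ) ∣ g' 0 0
    · obtain ⟨a', ha'⟩ := hdvd
      obtain ⟨g₂, h20, h21⟩ := exists_col_of_isCoprime
        (hcop.of_isCoprime_of_dvd_left ⟨ℓ, by rw [ha']; ring⟩ : IsCoprime a' (g' 1 0))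
      have e : (upperConj N ℓ ⟨_, hup i⟩).1 = g₂ * T ^ (n * ((ℓ * ℓ : ℕ) : ℤ)) * g₂⁻¹ := by
        refine Subtype.ext (hU.trans ?_)
        rw [conj_T_zpow_val, h20, h21, ha']
        push_cast
        ring_nf
      have hm : g₂ * T ^ n * g₂⁻¹ ∈ Gamma0 N := by
        have h' := Gamma0_mem_iff_dvd.mp hg'mem
        rw [Gamma0_mem_iff_dvd]
        rw [conj_T_zpow_val] at h' ⊢
        simpa [h21] using h'
      have e2 : upperConj N ℓ ⟨_, hup i⟩ = (⟨_, hm⟩ : Gamma0 N) ^ (ℓ * ℓ) := Subtype.ext (by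
        rw [e, SubmonoidClass.coe_pow, conj_pow, ← zpow_natCast (T ^ n), ← zpow_mul])
      rw [e2, ofMul_pow, map_nsmul, nsmul_eq_mul, Nat.cast_mul, h1, mul_one, one_mul]
      refine (apply_conj_eq φ ?_ ?_ n hg'mem hm).trans hbase
      · rw [h20, ha']; exact ⟨-(d * a'), by linear_combination -a' * hd⟩
      · rw [h21, sub_self]; exact dvd_zero _
    · have hp : IsCoprime (g' 0 0) (ℓ : ℤ) :=
        ((Nat.prime_iff_prime_int.mp hℓ).coprime_iff_not_dvd.mpr hdvd).symm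
      obtain ⟨g₂, h20, h21⟩ := exists_col_of_isCoprime (IsCoprime.mul_right hp hcop)
      have e : (upperConj N ℓ ⟨_, hup i⟩).1 = g₂ * T ^ n * g₂⁻¹ := by
        refine Subtype.ext (hU.trans ?_)
        rw [conj_T_zpow_val, h20, h21]
        ring_nf
      have hm : g₂ * T ^ n * g₂⁻¹ ∈ Gamma0 N := e ▸ SetLike.coe_mem _
      rw [show upperConj N ℓ ⟨_, hup i⟩ = (⟨_, hm⟩ : Gamma0 N) from Subtype.ext e]
      refine (apply_conj_eq φ ?_ ?_ n hg'mem hm).trans hbase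
      · rw [h20, sub_self]; exact dvd_zero _
      · rw [h21]; exact ⟨d * g' 1 0, by linear_combination g' 1 0 * hd⟩
  simp only [id_eq, key, Finset.sum_const, Finset.card_univ, Fintype.card_option, Fintype.card_fin,
    nsmul_eq_mul]

/-- **The defects of closedness are Eisenstein**: `T_ℓ - (ℓ + 1)` maps every character into
`Hom_cl`. -/
theorem isClHom_perTransfer_sub {k : Type} [CommRing k] (h2 : IsUnit (2 : k)) (hℓ : ℓ.Prime)
    (hN : (N : ℤ) ∣ (ℓ : ℤ) - 1) (hℓN : ¬ ℓ ∣ N) (h1 : (ℓ : k) = 1)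
    (hfree : ∀ x : SL(2, ℤ) ⧸ Gamma0 N, Grp.R • x ≠ x) (φ : Additive (Gamma0 N) →+ k) :
    IsClHom (Gamma0 N) (perTransfer N ℓ k φ - ((ℓ + 1 : ℕ) : k) • φ) := by
  set ψ := perTransfer N ℓ k φ - ((ℓ + 1 : ℕ) : k) • φ
  intro γ hγ
  obtain ⟨g, e, hge, he⟩ := exists_conj_of_abs_tr_le_two γ.1 hγ
  have hneg : (-1 : SL(2, ℤ)) ∈ Gamma0 N := neg_one_mem_Gamma0 N
  have hmem : g * e * g⁻¹ ∈ Gamma0 N := by
    rcases hge with h | h
    · exact h ▸ γ.2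
    · have := mul_mem hneg γ.2
      rwa [h, neg_mul_neg, one_mul] at this
  have hγe : ψ (Additive.ofMul γ) = ψ (Additive.ofMul ⟨_, hmem⟩) := by
    rcases hge with h | h
    · exact congrArg (fun x => ψ (Additive.ofMul x)) (Subtype.ext h)
    · have e1 : γ = ⟨_, hneg⟩ * ⟨_, hmem⟩ := Subtype.ext (by
        rw [Subgroup.coe_mul, h, neg_mul, one_mul])
      rw [e1, ofMul_mul, map_add, apply_neg_one h2, zero_add]
  rw [hγe]
  have hR : ∀ h : SL(2, ℤ), h * Grp.R * h⁻¹ ∉ Gamma0 N := fun h hh =>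
    hfree ((h⁻¹ : SL(2, ℤ)) : SL(2, ℤ) ⧸ Gamma0 N) (by
      rw [MulAction.Quotient.smul_coe, smul_eq_mul, QuotientGroup.eq]
      have := inv_mem hh
      simpa [mul_assoc] using this)
  rcases he with ⟨n, rfl⟩ | rfl | rfl | rfl
  · have h := perTransfer_parabolic hℓ hN hℓN h1 φ hmem
    have hpow : ψ (Additive.ofMul ((⟨_, hmem⟩ : Gamma0 N) ^ ℓ)) = ψ (Additive.ofMul ⟨_, hmem⟩) := by
      rw [ofMul_pow, map_nsmul, nsmul_eq_mul, h1, one_mul]
    rw [← hpow]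
    show perTransfer N ℓ k φ _ - ((ℓ + 1 : ℕ) : k) * φ _ = 0
    rw [h, ofMul_pow, map_nsmul, nsmul_eq_mul, h1, one_mul, sub_self]
  · have e4 : (⟨_, hmem⟩ : Gamma0 N) ^ 4 = 1 := Subtype.ext (by
      rw [SubmonoidClass.coe_pow, conj_pow, show 4 = 2 * 2 from rfl, pow_mul, pow_two S, S_mul_S]
      simp)
    have := mul_apply_eq_zero_of_pow ψ e4
    rw [show ((4 : ℕ) : k) = 2 * 2 by norm_num] at this
    exact (h2.mul h2).mul_right_eq_zero.mp this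
  · exact absurd hmem (hR g)
  · refine absurd (pow_mem hmem 2) fun h4 => hR g ?_
    rw [conj_pow, ← pow_mul, pow_succ, show (S * T) ^ 3 = -1 from Grp.R_pow_three] at h4
    have := mul_mem hneg h4
    simpa [Grp.R] using this

end Fermat.Agent.Raising.SquareRemoval
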