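import Fermat.Agent.Ihara.RaiseForms
import Fermat.Agent.Raising.SquareRemoval.Residual.Lattice

/-!
# Eigen systems of quotients of finite-dimensional Hecke modules

A system of eigenvalues occurring in a quotient of a Hecke stable part of a finite-dimensional
module occurs in the module; used to pass from coefficient quotients to level `MD`.
-/

noncomputable section

namespace Fermat.Agent.Raising.SquareRemoval

open scoped MatrixGroups
open CongruenceSubgroup Fermat.Agent.Ihara

/-- A system occurring in an image of a finite-dimensional module with commuting operators occurs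
in the module. -/
theorem exists_eigen_of_map {ι k U W : Type} [Field k] [AddCommGroup U] [Module k U]
    [FiniteDimensional k U]
    [AddCommGroup W] [Module k W] (T : ι → Module.End k U)
    (hT : ∀ i j x, T i (T j x) = T j (T i x)) (T' : ι → Module.End k W) (f : U →ₗ[k] W)
    (hf : ∀ i x, f (T i x) = T' i (f x)) (c : ι → k) (x : U) (hx : f x ≠ 0)
    (heig : ∀ i, T' i (f x) = c i • f x) :
    ∃ v : U, v ≠ 0 ∧ ∀ i, T i v = c i • v := by
  classical
  let φ : MvPolynomial ι k →+* Module.End k U :=
    (evalComm T fun i j => LinearMap.ext (hT i j)).toRingHom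
  have hφX : ∀ i, φ (MvPolynomial.X i) = T i := evalComm_X _ _
  have hφC : ∀ a, φ (MvPolynomial.C a) = a • (1 : Module.End k U) := fun a => by
    simp [φ, Algebra.algebraMap_eq_smul_one]
  set θ : MvPolynomial ι k →+* k := MvPolynomial.eval c with hθ
  by_contra hcon
  push Not at hcon
  obtain ⟨t, ht, hkill⟩ := exists_annihilator (RingHom.id k) Function.surjective_id φ hφC c
    fun w hw => by
    by_contra hw0
    obtain ⟨i, hi⟩ := hcon w hw0
    refine hi ?_
    have h := hw i
    rwa [map_sub, hφX, hφC, LinearMap.sub_apply, LinearMap.smul_apply, Module.End.one_apply,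
      sub_eq_zero] at h
  have key : ∀ (P : MvPolynomial ι k) (u : U) (a : k), f u = a • f x →
      f (φ P u) = (θ P * a) • f x := by
    intro P
    induction P using MvPolynomial.induction_on with
    | C r =>
      intro u a hu
      rw [hφC, LinearMap.smul_apply, Module.End.one_apply, map_smul, hu, smul_smul]
      simp [hθ]
    | add P Q hP hQ =>
      intro u a hu
      rw [map_add, map_add, LinearMap.add_apply, map_add, hP u a hu, hQ u a hu, add_mul, add_smul]
    | mul_X P i hP =>
      intro u a hu
      rw [map_mul, Module.End.mul_apply, hφX, map_mul,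
        hP (T i u) (a * c i) (by rw [hf, hu, map_smul, heig, smul_smul]),
        show θ (MvPolynomial.X i) = c i by simp [hθ]]
      congr 1
      ring
  have h := key t x 1 (one_smul _ _).symm
  rw [hkill, LinearMap.zero_apply, map_zero, mul_one, show θ t = 1 from ht, one_smul] at h
  exact hx h.symm

/-- `exists_eigen_of_map` for a map given on a cover of a subspace. -/
theorem exists_eigen_of_hom {ι k Z V W : Type} [Field k] [AddCommGroup Z] [Module k Z]
    [AddCommGroup V] [Module k V] [FiniteDimensional k V] [AddCommGroup W] [Module k W]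
    (T : ι → Module.End k V) (hT : ∀ i j x, T i (T j x) = T j (T i x))
    (T' : ι → Module.End k W) (g : Z →ₗ[k] V) (h : Z →ₗ[k] W)
    (hker : LinearMap.ker g ≤ LinearMap.ker h)
    (hst : ∀ i z, ∃ z', g z' = T i (g z) ∧ h z' = T' i (h z)) (c : ι → k) (x : Z) (hx : h x ≠ 0)
    (heig : ∀ i, T' i (h x) = c i • h x) :
    ∃ v : V, v ≠ 0 ∧ ∀ i, T i v = c i • v := by
  let f : LinearMap.range g →ₗ[k] W :=
    ((LinearMap.ker g).liftQ h hker).comp g.quotKerEquivRange.symm.toLinearMap
  have hf : ∀ z, f ⟨g z, LinearMap.mem_range_self g z⟩ = h z := fun z => by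
    show (LinearMap.ker g).liftQ h hker (g.quotKerEquivRange.symm _) = _
    rw [show g.quotKerEquivRange.symm ⟨g z, LinearMap.mem_range_self g z⟩ =
      Submodule.Quotient.mk z from g.quotKerEquivRange.symm_apply_eq.mpr (Subtype.ext rfl)]
    rfl
  have hmaps : ∀ i, ∀ v ∈ LinearMap.range g, T i v ∈ LinearMap.range g := by
    rintro i _ ⟨z, rfl⟩
    obtain ⟨z', hz', -⟩ := hst i z
    exact ⟨z', hz'⟩
  obtain ⟨v, hv0, hv⟩ := exists_eigen_of_map (fun i => (T i).restrict (hmaps i))
    (fun i j v => Subtype.ext (hT i j v.1)) T' f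
    (by
      rintro i ⟨_, z, rfl⟩
      obtain ⟨z', hz', hh⟩ := hst i z
      rw [show (T i).restrict (hmaps i) ⟨g z, LinearMap.mem_range_self g z⟩ =
        ⟨g z', LinearMap.mem_range_self g z'⟩ from Subtype.ext hz'.symm, hf, hf, hh])
    c ⟨g x, LinearMap.mem_range_self g x⟩ (by rw [hf]; exact hx) (fun i => by rw [hf]; exact heig i)
  exact ⟨v.1, fun h0 => hv0 (Subtype.ext h0), fun i => congrArg Subtype.val (hv i)⟩

variable {N : ℕ} [NeZero N]

/-- The Hecke operators commute for every ring of coefficients. -/
theorem clT_comm (k : Type) [CommRing k] {ℓ ℓ' : ℕ} [NeZero ℓ] [NeZero ℓ'] (hℓ : ℓ.Prime)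
    (hℓ' : ℓ'.Prime) (φ : clH k N) :
    clT k N ℓ (clT k N ℓ' φ) = clT k N ℓ' (clT k N ℓ φ) := by
  have hφ : φ ∈ Submodule.span k
      (Set.range (clMap (Γ := Gamma0 N) (Int.castRingHom k))) := by
    rw [span_range_clMap (Fermat.Agent.Grp.neg_one_mem_Gamma0 N)]; trivial
  induction hφ using Submodule.span_induction with
  | mem x hx =>
    obtain ⟨ψ, rfl⟩ := hx
    exact (clT_clMap_clT (k := ℤ) (k' := k) (r := ℓ) (r' := ℓ') (Int.castRingHom k) ψ).trans
      ((congrArg _ (clT_comm_int hℓ hℓ' ψ)).trans
        (clT_clMap_clT (k := ℤ) (k' := k) (r := ℓ') (r' := ℓ) (Int.castRingHom k) ψ).symm)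
  | zero => simp
  | add x y _ _ hx hy => simp [map_add, hx, hy]
  | smul a x _ hx => simp [map_smul, hx]

/-- `Hom_cl` with coefficients in `k` is finitely generated over `k`. -/
theorem module_finite_clH (k : Type) [CommRing k] : Module.Finite k (clH k N) := by
  obtain ⟨e⟩ := Fermat.Agent.Grp.nonempty_clHoms_equiv_pi (Gamma0 N)
    (Fermat.Agent.Grp.neg_one_mem_Gamma0 N) k k
  exact Module.Finite.equiv e.symm

end Fermat.Agent.Raising.SquareRemoval
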