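import Mathlib.Algebra.Module.Equiv.Basic
import Fermat.Agent.Grp.EdgeHom
import Fermat.Agent.Raising.SquareRemoval.Coeff

/-!
# Crossed homomorphisms lift along surjections when there are no points of order three

`SL(2,ℤ)/±1 = C₂ * C₃`: for a subgroup `Γ ∋ -1` of finite index without fixed cosets of `R` and
coefficients on which `-1` is trivial and `2` is invertible, every crossed homomorphism of `Γ`
lifts along every equivariant surjection.
-/

noncomputable section

namespace Fermat.Agent.Raising.SquareRemoval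

open scoped MatrixGroups
open Fermat.Agent.Grp ModularGroup

variable {k : Type*} [CommRing k] {P Q : Type*} [AddCommGroup P] [Module k P] [AddCommGroup Q]
  [Module k Q] (ρ : Representation k SL(2, ℤ) P) (τ : Representation k SL(2, ℤ) Q)
variable {Γ : Subgroup SL(2, ℤ)}

/-- Twisted cocycles on the cosets: `c (g * h) x = c g (h • x) + ρ g (c h x)`. -/
def IsTwCoc (c : SL(2, ℤ) → (SL(2, ℤ) ⧸ Γ) → P) : Prop :=
  ∀ g h x, c (g * h) x = c g (h • x) + ρ g (c h x)

variable {ρ} in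
theorem IsTwCoc.one {c : SL(2, ℤ) → (SL(2, ℤ) ⧸ Γ) → P} (hc : IsTwCoc ρ c)
    (x : SL(2, ℤ) ⧸ Γ) : c 1 x = 0 := by
  have h := hc 1 1 x
  simpa using h

variable {ρ} in
theorem IsTwCoc.ext {c c' : SL(2, ℤ) → (SL(2, ℤ) ⧸ Γ) → P} (hc : IsTwCoc ρ c)
    (hc' : IsTwCoc ρ c') (hS : ∀ x, c S x = c' S x) (hR : ∀ x, c R x = c' R x) : c = c' := by
  funext g
  have hg : g ∈ Subgroup.closure {S, R} := by rw [closure_S_R]; trivial
  induction hg using Subgroup.closure_induction with
  | mem g hg =>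
    simp only [Set.mem_insert_iff, Set.mem_singleton_iff] at hg
    rcases hg with rfl | rfl
    · exact funext hS
    · exact funext hR
  | one => funext x; rw [hc.one, hc'.one]
  | mul g h _ _ hg hh => funext x; rw [hc, hc', hg, hh]
  | inv g _ hg =>
    funext x
    have h := hc g g⁻¹ x
    have h' := hc' g g⁻¹ x
    rw [mul_inv_cancel, hc.one] at h
    rw [mul_inv_cancel, hc'.one, ← hg] at h'
    have e : ρ g (c g⁻¹ x) = ρ g (c' g⁻¹ x) := add_left_cancel (h.symm.trans h')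
    simpa [rep_apply_mul] using congrArg (ρ g⁻¹) e

theorem R_smul_smul_smul (hneg : (-1 : SL(2, ℤ)) ∈ Γ) (x : SL(2, ℤ) ⧸ Γ) : R • R • R • x = x := by
  rw [← mul_smul, ← mul_smul, ← pow_two, ← pow_succ, R_pow_three_smul hneg]

variable (Γ) in
/-- The affine permutation `(x, p) ↦ (g • x, a x + ρ g p)`. -/
def affPerm (g : SL(2, ℤ)) (a : (SL(2, ℤ) ⧸ Γ) → P) : Equiv.Perm ((SL(2, ℤ) ⧸ Γ) × P) where
  toFun v := (g • v.1, a v.1 + ρ g v.2)
  invFun v := (g⁻¹ • v.1, ρ g⁻¹ (v.2 - a (g⁻¹ • v.1)))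
  left_inv v := by simp [rep_apply_mul]
  right_inv v := by simp [rep_apply_mul]

/-- Values at `S` and `R` satisfying the two relations extend to a twisted cocycle. -/
theorem exists_twCoc (hneg : (-1 : SL(2, ℤ)) ∈ Γ) (hP : ρ (-1) = 1)
    (a b : (SL(2, ℤ) ⧸ Γ) → P) (ha : ∀ x, a (S • x) + ρ S (a x) = 0)
    (hb : ∀ x, b (R • R • x) + ρ R (b (R • x)) + ρ R (ρ R (b x)) = 0) :
    ∃ c, IsTwCoc ρ c ∧ (∀ x, c S x = a x) ∧ ∀ x, c R x = b x := by
  obtain ⟨f, hfS, hfR⟩ := exists_lift_S_R (affPerm ρ Γ S a) (affPerm ρ Γ R b)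
    (Equiv.ext fun v => by
      obtain ⟨x, p⟩ := v
      rw [pow_two, Equiv.Perm.mul_apply, Equiv.Perm.one_apply]
      refine Prod.ext (S_smul_S_smul hneg x) ?_
      show a (S • x) + ρ S (a x + ρ S p) = p
      rw [map_add, ← add_assoc, ha, zero_add, rep_apply_mul, S_mul_S, hP, Module.End.one_apply])
    (Equiv.ext fun v => by
      obtain ⟨x, p⟩ := v
      rw [pow_succ, pow_two, Equiv.Perm.mul_apply, Equiv.Perm.mul_apply, Equiv.Perm.one_apply]
      refine Prod.ext ?_ ?_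
      · exact R_smul_smul_smul hneg x
      · show b (R • R • x) + ρ R (b (R • x) + ρ R (b x + ρ R p)) = p
        rw [map_add, map_add, map_add, ← add_assoc, ← add_assoc, hb, zero_add, rep_apply_mul,
          rep_apply_mul, ← pow_two, ← pow_succ, R_pow_three, hP, Module.End.one_apply])
  have key : ∀ g x p, f g (x, p) = (g • x, (f g (x, 0)).2 + ρ g p) := fun g => by
    have hg : g ∈ Subgroup.closure {S, R} := by rw [closure_S_R]; trivial
    induction hg using Subgroup.closure_induction with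
    | mem g hg =>
      simp only [Set.mem_insert_iff, Set.mem_singleton_iff] at hg
      intro x p
      rcases hg with rfl | rfl
      · simp [hfS, affPerm]
      · simp [hfR, affPerm]
    | one => intro x p; simp
    | mul g h _ _ hg hh =>
      intro x p
      rw [map_mul, Equiv.Perm.mul_apply, Equiv.Perm.mul_apply, hh, hg, hh x 0, hg _ (_ + _),
        map_zero, add_zero, map_add, ← add_assoc, mul_smul, rep_apply_mul]
    | inv g _ hg =>
      intro x p
      have h1 : ∀ y, f g⁻¹ (f g y) = y := fun y => by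
        rw [← Equiv.Perm.mul_apply, ← map_mul, inv_mul_cancel, map_one, Equiv.Perm.one_apply]
      have e : ∀ q, f g⁻¹ (x, q) = (g⁻¹ • x, ρ g⁻¹ (q - (f g (g⁻¹ • x, 0)).2)) := fun q => by
        have h := h1 (g⁻¹ • x, ρ g⁻¹ (q - (f g (g⁻¹ • x, 0)).2))
        rw [hg, smul_inv_smul, rep_apply_mul, mul_inv_cancel, map_one, Module.End.one_apply,
          add_sub_cancel] at h
        exact h
      rw [e p, e 0, zero_sub, map_sub, map_neg, neg_add_eq_sub]
  refine ⟨fun g x => (f g (x, 0)).2, fun g h x => ?_, fun x => ?_, fun x => ?_⟩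
  · show (f (g * h) (x, 0)).2 = _
    rw [map_mul, Equiv.Perm.mul_apply, key h x 0, map_zero, add_zero, key g]
  · simp [hfS, affPerm]
  · simp [hfR, affPerm]

section Section

variable (Γ)

/-- A section of the cosets taking the base coset to `1`. -/
def baseSec [DecidableEq (SL(2, ℤ) ⧸ Γ)] (x : SL(2, ℤ) ⧸ Γ) : SL(2, ℤ) :=
  if x = baseCoset Γ then 1 else x.out

theorem baseSec_spec [DecidableEq (SL(2, ℤ) ⧸ Γ)] (x : SL(2, ℤ) ⧸ Γ) :
    (baseSec Γ x : SL(2, ℤ) ⧸ Γ) = x := by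
  unfold baseSec
  split_ifs with h
  · rw [h]; rfl
  · exact QuotientGroup.out_eq' x

theorem baseSec_base [DecidableEq (SL(2, ℤ) ⧸ Γ)] : baseSec Γ (baseCoset Γ) = 1 := if_pos rfl

end Section

/-- A weight on the cosets with sum one on every orbit of `R`. -/
theorem exists_orbit_weight (hneg : (-1 : SL(2, ℤ)) ∈ Γ)
    (hfree : ∀ x : SL(2, ℤ) ⧸ Γ, R • x ≠ x) : ∃ ind : (SL(2, ℤ) ⧸ Γ) → k,
      ∀ x, ind (R • R • x) + ind (R • x) + ind x = 1 := by
  classical
  let r : Setoid (SL(2, ℤ) ⧸ Γ) := MulAction.orbitRel (Subgroup.zpowers R) _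
  let ind : (SL(2, ℤ) ⧸ Γ) → k := fun x => if (Quotient.mk r x).out = x then 1 else 0
  have horb : ∀ x, Quotient.mk r (R • x) = Quotient.mk r x := fun x =>
    Quotient.sound ⟨⟨R, Subgroup.mem_zpowers R⟩, rfl⟩
  refine ⟨ind, fun x => ?_⟩
  set o := (Quotient.mk r x).out
  have ho : o = x ∨ o = R • x ∨ o = R • R • x := by
    obtain ⟨⟨g, hg⟩, hgo⟩ := Quotient.exact (Quotient.out_eq (Quotient.mk r x))
    obtain ⟨n, rfl⟩ := Subgroup.mem_zpowers_iff.mp hg
    replace hgo : R ^ n • x = o := hgo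
    have h3 : ∀ m : ℤ, R ^ (3 * m) • x = x := fun m => by
      have hfix : R ^ (3 : ℤ) ∈ MulAction.stabilizer SL(2, ℤ) x := by
        simpa [zpow_ofNat] using R_pow_three_smul hneg x
      rw [zpow_mul]
      exact zpow_mem hfix m
    have hn : R ^ n • x = R ^ (n % 3) • x := by
      conv_lhs => rw [← Int.emod_add_mul_ediv n 3, zpow_add, mul_smul, h3]
    rcases (show n % 3 = 0 ∨ n % 3 = 1 ∨ n % 3 = 2 by omega) with e | e | e <;>
      rw [hn, e] at hgo
    · exact Or.inl (by simpa using hgo.symm)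
    · exact Or.inr (Or.inl (by simpa using hgo.symm))
    · exact Or.inr (Or.inr (by rw [← hgo, zpow_two, mul_smul]))
  have h1 : R • x ≠ x := hfree x
  have h2' : R • R • x ≠ R • x := hfree (R • x)
  have h3' : x ≠ R • R • x := fun h => hfree (R • R • x) (by rw [R_smul_smul_smul hneg, ← h])
  simp only [ind, horb]
  rcases ho with e | e | e <;> simp [o] at e <;>
    simp [e, h1, h2', h3', h1.symm, h2'.symm, h3'.symm]

/-- **Lifting**: without points of order three, with `2` invertible and `-1` acting trivially,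
crossed homomorphisms of `Γ` lift along equivariant surjections of coefficients. -/
theorem exists_lift_cocycle (hneg : (-1 : SL(2, ℤ)) ∈ Γ)
    (hfree : ∀ x : SL(2, ℤ) ⧸ Γ, R • x ≠ x) (h2 : IsUnit (2 : k)) (hP : ρ (-1) = 1)
    (π : P →ₗ[k] Q) (hπ : Function.Surjective π) (hπρ : ∀ g p, π (ρ g p) = τ g (π p))
    {z : Γ → Q} (hz : z ∈ cocycles (τ.comp Γ.subtype)) :
    ∃ w ∈ cocycles (ρ.comp Γ.subtype), π.compLeft Γ w = z := by
  classical
  have hQ : τ (-1) = 1 := LinearMap.ext fun q => by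
    obtain ⟨p, rfl⟩ := hπ q
    rw [← hπρ, hP]
    rfl
  set t := baseSec Γ
  have hmem : ∀ g x, (t (g • x))⁻¹ * (g * t x) ∈ Γ := fun g x =>
    Hecke.cocycle_mem t (baseSec_spec Γ) g x
  -- the cocycle of `z` on all of `SL(2,ℤ)`
  let c : SL(2, ℤ) → (SL(2, ℤ) ⧸ Γ) → Q := fun g x => τ (t (g • x)) (z ⟨_, hmem g x⟩)
  have hc : IsTwCoc τ c := fun g h x => by
    have e : (⟨_, hmem (g * h) x⟩ : Γ) = ⟨_, hmem g (h • x)⟩ * ⟨_, hmem h x⟩ :=
      Subtype.ext (by simp [mul_smul, mul_assoc])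
    show τ _ (z ⟨_, hmem (g * h) x⟩) = _
    rw [e, hz, map_add, mul_smul]
    refine congr_arg₂ (· + ·) rfl ?_
    show τ (t (g • h • x)) (τ ((t (g • h • x))⁻¹ * (g * t (h • x))) _) = τ g (τ (t (h • x)) _)
    rw [rep_apply_mul, rep_apply_mul, mul_inv_cancel_left]
  have hneg1 : ∀ x, c (-1) x = 0 := fun x => by
    have e := hc (-1) (-1) x
    rw [show (-1 : SL(2, ℤ)) * -1 = 1 by simp, hc.one, neg_one_smul_coset hneg, hQ,
      Module.End.one_apply, ← two_smul k] at e
    exact (h2.smul_eq_zero).mp e.symm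
  have hcS : ∀ x, c S (S • x) + τ S (c S x) = 0 := fun x => by
    rw [← hc, S_mul_S, hneg1]
  have hcR : ∀ x, c R (R • R • x) + τ R (c R (R • x)) + τ R (τ R (c R x)) = 0 := fun x => by
    rw [add_assoc, ← map_add, ← hc, ← mul_smul, ← hc, show R * (R * R) = R ^ 3 by
      simp [pow_succ, mul_assoc],
      R_pow_three, hneg1]
  -- lifts of the values at `S`
  obtain ⟨ψ, hψ⟩ : ∃ ψ : Q → P, ∀ q, π (ψ q) = q := ⟨_, Function.surjInv_eq hπ⟩
  obtain ⟨u, hu⟩ := h2.exists_right_inv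
  have hhalf : ∀ p : P, u • p + u • p = p := fun p => by
    rw [← add_smul, ← two_mul, hu, one_smul]
  let E : (SL(2, ℤ) ⧸ Γ) → P := fun x => ψ (c S (S • x)) + ρ S (ψ (c S x))
  let a : (SL(2, ℤ) ⧸ Γ) → P := fun x => ψ (c S x) - u • ρ S (E x)
  have hρS : ∀ p, ρ S (ρ S p) = p := fun p => by
    rw [rep_apply_mul, S_mul_S, hP, Module.End.one_apply]
  have hES : ∀ x, E (S • x) = ρ S (E x) := fun x => by
    simp only [E, S_smul_S_smul hneg, map_add, hρS]
    rw [add_comm]
  have ha : ∀ x, a (S • x) + ρ S (a x) = 0 := fun x => by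
    simp only [a, hES, map_sub, map_smul, hρS]
    rw [sub_add_sub_comm, hhalf]
    exact sub_self _
  have hπE : ∀ x, π (E x) = 0 := fun x => by
    simp only [E, map_add, hψ, hπρ, hcS]
  have haπ : ∀ x, π (a x) = c S x := fun x => by
    simp [a, hψ, hπρ, hπE]
  -- lifts of the values at `R`
  obtain ⟨ind, hind⟩ := exists_orbit_weight (k := k) hneg hfree
  have hρR : ∀ p, ρ R (ρ R (ρ R p)) = p := fun p => by
    rw [rep_apply_mul, rep_apply_mul, ← pow_two, ← pow_succ, R_pow_three, hP, Module.End.one_apply]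
  let F : (SL(2, ℤ) ⧸ Γ) → P := fun x =>
    ψ (c R (R • R • x)) + ρ R (ψ (c R (R • x))) + ρ R (ρ R (ψ (c R x)))
  have hFR : ∀ x, F (R • x) = ρ R (F x) := fun x => by
    simp only [F, R_smul_smul_smul hneg, map_add, hρR]
    abel
  have hπF : ∀ x, π (F x) = 0 := fun x => by
    simp only [F, map_add, hψ, hπρ, hcR]
  let b : (SL(2, ℤ) ⧸ Γ) → P := fun x => ψ (c R x) - ind x • ρ R (F x)
  have hb : ∀ x, b (R • R • x) + ρ R (b (R • x)) + ρ R (ρ R (b x)) = 0 := fun x => by
    have hFx : ρ R (ρ R (ρ R (F x))) = F x := hρR _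
    simp only [b, hFR, map_sub, map_smul, hFx]
    have e : F x = ind (R • R • x) • F x + ind (R • x) • F x + ind x • F x := by
      rw [← add_smul, ← add_smul, hind, one_smul]
    simp only [F] at e ⊢
    linear_combination (norm := abel) e
  have hbπ : ∀ x, π (b x) = c R x := fun x => by
    simp [b, hψ, hπρ, hπF]
  obtain ⟨C, hC, hCS, hCR⟩ := exists_twCoc ρ hneg hP a b ha hb
  have hproj : (fun g x => π (C g x)) = c :=
    IsTwCoc.ext (fun g h x => by simp [hC g h x, hπρ]) hc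
      (fun x => by simp [hCS, haπ]) (fun x => by simp [hCR, hbπ])
  have hfix : ∀ γ : Γ, (γ : SL(2, ℤ)) • baseCoset Γ = baseCoset Γ := fun γ =>
    (smul_baseCoset_eq _).mpr γ.2
  refine ⟨fun γ => C γ (baseCoset Γ), fun γ δ => ?_, funext fun γ => ?_⟩
  · show C ((γ : SL(2, ℤ)) * δ) _ = _
    rw [hC, hfix]
    rfl
  · show π (C γ (baseCoset Γ)) = z γ
    have h1 : t ((γ : SL(2, ℤ)) • baseCoset Γ) = 1 := by rw [hfix]; exact baseSec_base Γ
    have h0 : t (baseCoset Γ) = 1 := baseSec_base Γ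
    have he : (⟨_, hmem γ (baseCoset Γ)⟩ : Γ) = γ := Subtype.ext (by simp [h1, h0])
    have hval : π (C γ (baseCoset Γ)) =
        τ (t ((γ : SL(2, ℤ)) • baseCoset Γ)) (z ⟨_, hmem γ (baseCoset Γ)⟩) :=
      congrFun (congrFun hproj (γ : SL(2, ℤ))) (baseCoset Γ)
    clear_value c t
    rw [hval, he, h1, map_one, Module.End.one_apply]

end Fermat.Agent.Raising.SquareRemoval
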