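import Fermat.Agent.Raising.SquareRemoval.Boundary
import Fermat.Agent.Raising.SquareRemoval.Descend
import Fermat.Agent.Raising.SquareRemoval.Lift
import Fermat.Agent.Raising.SquareRemoval.Shapiro

/-!
# From coefficients inside a quotient of `k[P¹(ℤ/D)]` to level `MD`

A system of `T_ℓ` (`ℓ ≡ 1 (mod D)`), non-Eisenstein at one `ℓ₀ ≡ 1 (mod 3MD)`, on `H¹(Γ₀(M), A)`,
where `A` embeds in a quotient of the functions on `SL(2,ℤ) ⧸ Γ₀(D)`, occurs in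
`Hom_cl(Γ₀(MD), k)`, provided `Γ₀(M)` has no elements of order three modulo `±1`. Several copies
of the functions are allowed.
-/

noncomputable section

namespace Fermat.Agent.Raising.SquareRemoval

open scoped MatrixGroups
open CongruenceSubgroup Fermat.Agent.Grp Fermat.Agent.Hecke Fermat.Agent.Ihara

variable {M D : ℕ} [NeZero M] [NeZero D]

/-- Having no coset fixed by `R` passes to smaller subgroups. -/
theorem free_of_le {Γ Δ : Subgroup SL(2, ℤ)} (hle : Δ ≤ Γ)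
    (hfree : ∀ x : SL(2, ℤ) ⧸ Γ, R • x ≠ x) (x : SL(2, ℤ) ⧸ Δ) : R • x ≠ x := fun h => by
  induction x using QuotientGroup.induction_on with
  | _ y =>
    refine hfree (y : SL(2, ℤ) ⧸ Γ) ?_
    rw [MulAction.Quotient.smul_coe, QuotientGroup.eq] at h ⊢
    exact hle h

/-- The indices of the operators used: primes `ℓ ≡ 1 (mod D)` not dividing `M * D`. -/
structure IsGoodIdx (M D ℓ : ℕ) : Prop where
  prime : ℓ.Prime
  not_dvd : ¬ ℓ ∣ M * D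
  cong_D : (D : ℤ) ∣ (ℓ : ℤ) - 1

omit [NeZero M] [NeZero D] in
theorem cong_mul_of_cong_three {ℓ : ℕ} (h : ((3 * M * D : ℕ) : ℤ) ∣ (ℓ : ℤ) - 1) :
    ((M * D : ℕ) : ℤ) ∣ (ℓ : ℤ) - 1 :=
  (Int.natCast_dvd_natCast.mpr (by rw [mul_assoc]; exact dvd_mul_left _ _)).trans h

omit [NeZero M] [NeZero D] in
theorem cast_eq_one_of_cong_three {ℓ : ℕ} (h : ((3 * M * D : ℕ) : ℤ) ∣ (ℓ : ℤ) - 1) {k : Type}
    [CommRing k] (h3 : (3 : k) = 0) : (ℓ : k) = 1 := by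
  obtain ⟨m, hm⟩ := h
  rw [← sub_eq_zero]
  have e := congrArg (fun n : ℤ => (n : k)) hm
  push_cast at e
  rw [e, h3, zero_mul, zero_mul, zero_mul]

section System

variable {k : Type} [Field k] {A : Type} [AddCommGroup A] [Module k A]
  (ρA : Representation k SL(2, ℤ) A)

/-- `c` is a system of eigenvalues on `z` modulo `E` and principal crossed homomorphisms. -/
def IsEigenClass (E : Submodule k (Gamma0 M → A)) (z : Gamma0 M → A) (S : Set ℕ) (c : ℕ → k)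
    (hS : ∀ ℓ ∈ S, IsGoodIdx M D ℓ) : Prop :=
  ∀ (ℓ : ℕ) (hℓ : ℓ ∈ S), haveI : NeZero ℓ := ⟨(hS ℓ hℓ).prime.ne_zero⟩
    heckeCoc ρA (hS ℓ hℓ).prime (hS ℓ hℓ).not_dvd z - c ℓ • z ∈ E ⊔ coboundaries (resLow M ρA)

/-- The part of the cohomology that is discarded: stable, and of eigenvalue `2` at `ℓ₀`. -/
structure IsEisPart (E : Submodule k (Gamma0 M → A)) (S : Set ℕ)
    (hS : ∀ ℓ ∈ S, IsGoodIdx M D ℓ) {ℓ₀ : ℕ} (hℓ₀ : ℓ₀ ∈ S) : Prop where
  stable : ∀ (ℓ : ℕ) (hℓ : ℓ ∈ S), haveI : NeZero ℓ := ⟨(hS ℓ hℓ).prime.ne_zero⟩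
    ∀ e ∈ E, heckeCoc ρA (hS ℓ hℓ).prime (hS ℓ hℓ).not_dvd e ∈ E ⊔ coboundaries (resLow M ρA)
  two : haveI : NeZero ℓ₀ := ⟨(hS ℓ₀ hℓ₀).prime.ne_zero⟩
    ∀ e ∈ E, heckeCoc ρA (hS ℓ₀ hℓ₀).prime (hS ℓ₀ hℓ₀).not_dvd e - (2 : k) • e ∈
      coboundaries (resLow M ρA)

end System

/-- Several copies of the permutation representation. -/
def permRepPi (k : Type) [CommRing k] (D : ℕ) (J : Type) :
    Representation k SL(2, ℤ) (J → (SL(2, ℤ) ⧸ Gamma0 D) → k) where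
  toFun g := LinearMap.pi fun j => (permRep k D g).comp (LinearMap.proj j)
  map_one' := LinearMap.ext fun f => funext fun j => by simp
  map_mul' g h := LinearMap.ext fun f => funext fun j => by simp [Module.End.mul_apply]

theorem permRepPi_apply {k : Type} [CommRing k] {D : ℕ} {J : Type} (g : SL(2, ℤ))
    (f : J → (SL(2, ℤ) ⧸ Gamma0 D) → k) (j : J) : permRepPi k D J g f j = permRep k D g (f j) := rfl

variable {k : Type} [Field k] {J : Type} [Finite J] {A Q : Type} [AddCommGroup A] [Module k A]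
  [AddCommGroup Q] [Module k Q] {ρA : Representation k SL(2, ℤ) A}
  {ρQ : Representation k SL(2, ℤ) Q}

omit [Finite J] [NeZero D] in
/-- The Hecke operators commute with a map of coefficients. -/
theorem heckeCoc_compLeft (ι : A →ₗ[k] Q) (hιρ : ∀ g a, ι (ρA g a) = ρQ g (ι a)) {ℓ : ℕ}
    [NeZero ℓ] (hℓ : ℓ.Prime) (hn : ¬ ℓ ∣ M * D) (z : Gamma0 M → A) :
    heckeCoc ρQ hℓ hn (ι.compLeft (Gamma0 M) z) =
      ι.compLeft (Gamma0 M) (heckeCoc ρA hℓ hn z) :=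
  (cocTransfer_comp (σ := resLow M ρQ) (resLow M ρA) _ _ _ ι (fun g a => hιρ g a) LinearMap.id
    (fun _ => rfl) z).symm

omit [Finite J] [NeZero D] [NeZero M] in
theorem compLeft_mem_map_sup (ι : A →ₗ[k] Q) (hιρ : ∀ g a, ι (ρA g a) = ρQ g (ι a))
    {E : Submodule k (Gamma0 M → A)} {y : Gamma0 M → A}
    (hy : y ∈ E ⊔ coboundaries (resLow M ρA)) :
    ι.compLeft (Gamma0 M) y ∈ E.map (ι.compLeft (Gamma0 M)) ⊔ coboundaries (resLow M ρQ) := by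
  obtain ⟨e, he, b, hb, rfl⟩ := Submodule.mem_sup.mp hy
  rw [map_add]
  exact add_mem (Submodule.mem_sup_left ⟨e, he, rfl⟩)
    (Submodule.mem_sup_right (comp_mem_coboundaries (σ := resLow M ρQ) ι (fun g a => hιρ g a) hb))

omit [Finite J] [NeZero D] in
/-- A class that is not principal modulo `E` stays so in a bigger coefficient module. -/
theorem map_notMem_sup (h3 : (3 : k) = 0)
    (hρQ : ∀ g ∈ CongruenceSubgroup.Gamma D, ρQ g = 1)
    (ι : A →ₗ[k] Q) (hι : Function.Injective ι) (hιρ : ∀ g a, ι (ρA g a) = ρQ g (ι a))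
    {S : Set ℕ} (hS : ∀ ℓ ∈ S, IsGoodIdx M D ℓ) {c : ℕ → k} {z : Gamma0 M → A}
    {E : Submodule k (Gamma0 M → A)} (hz0 : z ∉ E ⊔ coboundaries (resLow M ρA))
    (heig : IsEigenClass ρA E z S c hS)
    {ℓ₀ : ℕ} (hℓ₀S : ℓ₀ ∈ S) (hℓ₀3 : ((3 * M * D : ℕ) : ℤ) ∣ (ℓ₀ : ℤ) - 1)
    (hE : IsEisPart ρA E S hS hℓ₀S) (hℓ₀ : c ℓ₀ ≠ 2) :
    ι.compLeft (Gamma0 M) z ∉ E.map (ι.compLeft (Gamma0 M)) ⊔ coboundaries (resLow M ρQ) := by
  have : NeZero ℓ₀ := ⟨(hS ℓ₀ hℓ₀S).prime.ne_zero⟩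
  set σA := resLow M ρA
  set σQ := resLow M ρQ
  have hι' : ∀ (g : Gamma0 M) a, ι (σA g a) = σQ g (ι a) := fun g a => hιρ g a
  have hn2 : ((ℓ₀ + 1 : ℕ) : k) = 2 := by
    rw [Nat.cast_add, cast_eq_one_of_cong_three hℓ₀3 h3, Nat.cast_one, one_add_one_eq_two]
  intro hzQ
  obtain ⟨_, ⟨e, he, rfl⟩, b, hb, hzb⟩ := Submodule.mem_sup.mp hzQ
  have hzeQ : ι.compLeft (Gamma0 M) (z - e) ∈ coboundaries σQ := by
    rwa [map_sub, ← hzb, add_sub_cancel_left]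
  have h1 := sub_natCard_smul_mem_coboundaries (δ := LinearMap.id) σA (upperConj M ℓ₀)
    (lowSec (hS ℓ₀ hℓ₀S).prime (hS ℓ₀ hℓ₀S).not_dvd)
    (lowSec_spec (hS ℓ₀ hℓ₀S).prime (hS ℓ₀ hℓ₀S).not_dvd) ι hι hι'
    LinearMap.id (fun _ => rfl) (fun h v => rep_upperConj ρQ hρQ (hS ℓ₀ hℓ₀S).cong_D h v)
    (fun b hb => by
      rw [← Fintype.card_eq_nat_card]
      rw [show Fintype.card (Gamma0 M ⧸ upperSub M ℓ₀) • b =
        ∑ _q : Gamma0 M ⧸ upperSub M ℓ₀, b by simp, ← Finset.sum_sub_distrib]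
      exact Submodule.sum_mem _ fun q _ => hb _)
    hzeQ
  rw [card_upperQuot (hS ℓ₀ hℓ₀S).prime (hS ℓ₀ hℓ₀S).not_dvd, hn2] at h1
  have h2' := hE.two e he
  have h3' := heig ℓ₀ hℓ₀S
  have h4 : (c ℓ₀ - 2) • z ∈ E ⊔ coboundaries σA := by
    have h5 := sub_mem (Submodule.mem_sup_right (S := E) (add_mem h1 h2')) h3'
    convert h5 using 1
    show _ = (heckeCoc ρA (hS ℓ₀ hℓ₀S).prime (hS ℓ₀ hℓ₀S).not_dvd (z - e) - (2 : k) • (z - e) +
      (heckeCoc ρA (hS ℓ₀ hℓ₀S).prime (hS ℓ₀ hℓ₀S).not_dvd e - (2 : k) • e)) - _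
    rw [map_sub, sub_smul, smul_sub]
    abel
  have h' := Submodule.smul_mem _ (c ℓ₀ - 2)⁻¹ h4
  rw [inv_smul_smul₀ (sub_ne_zero.mpr hℓ₀)] at h'
  exact hz0 h'

/-- Several functions on the cosets of `Γ₀(D)`, combined and mapped by `π`. -/
def combMap (π : (J → (SL(2, ℤ) ⧸ Gamma0 D) → k) →ₗ[k] Q) :
    (J → (Gamma0 M → ((SL(2, ℤ) ⧸ Gamma0 D) → k))) →ₗ[k] (Gamma0 M → Q) :=
  (π.compLeft (Gamma0 M)).comp
    (LinearMap.pi fun γ : Gamma0 M => LinearMap.pi fun j : J =>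
      (LinearMap.proj (R := k) (φ := fun _ : Gamma0 M => (SL(2, ℤ) ⧸ Gamma0 D) → k) γ).comp
        (LinearMap.proj (R := k)
          (φ := fun _ : J => Gamma0 M → ((SL(2, ℤ) ⧸ Gamma0 D) → k)) j))

omit [Finite J] [NeZero D] [NeZero M] in
theorem combMap_apply (π : (J → (SL(2, ℤ) ⧸ Gamma0 D) → k) →ₗ[k] Q)
    (v : J → (Gamma0 M → ((SL(2, ℤ) ⧸ Gamma0 D) → k))) :
    combMap π v = π.compLeft (Gamma0 M) fun γ j => v j γ := rfl

omit [Finite J] [NeZero D] in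
/-- `combMap` commutes with `T_ℓ`. -/
theorem combMap_heckeCoc (π : (J → (SL(2, ℤ) ⧸ Gamma0 D) → k) →ₗ[k] Q)
    (hπρ : ∀ g f, π (permRepPi k D J g f) = ρQ g (π f)) {ℓ : ℕ} [NeZero ℓ] (hℓ : ℓ.Prime)
    (hn : ¬ ℓ ∣ M * D) (v : J → (Gamma0 M → ((SL(2, ℤ) ⧸ Gamma0 D) → k))) :
    combMap π (fun j => heckeCoc (permRep k D) hℓ hn (v j)) =
      heckeCoc ρQ hℓ hn (combMap π v) := by
  rw [combMap_apply, combMap_apply]
  refine Eq.trans (congrArg (π.compLeft (Gamma0 M)) (funext fun γ => funext fun j => ?_))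
    (cocTransfer_comp (σ := resLow M ρQ) (δ := LinearMap.id) (resLow M (permRepPi k D J))
      (upperConj M ℓ) (lowSec hℓ hn) (lowSec_spec hℓ hn) π (fun g f => hπρ g f) LinearMap.id
      (fun _ => rfl) fun γ j => v j γ)
  simp only [heckeCoc, cocTransfer_apply, Finset.sum_apply]
  rfl

/-- **The system occurs at level `MD`.** -/
theorem exists_eigen_level (hMD : Nat.Coprime M D) (h3 : (3 : k) = 0)
    (hfree : ∀ x : SL(2, ℤ) ⧸ Gamma0 M, R • x ≠ x)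
    (ι : A →ₗ[k] Q) (hι : Function.Injective ι) (hιρ : ∀ g a, ι (ρA g a) = ρQ g (ι a))
    (π : (J → (SL(2, ℤ) ⧸ Gamma0 D) → k) →ₗ[k] Q) (hπ : Function.Surjective π)
    (hπρ : ∀ g f, π (permRepPi k D J g f) = ρQ g (π f))
    {S : Set ℕ} (hS : ∀ ℓ ∈ S, IsGoodIdx M D ℓ) {c : ℕ → k}
    {z : Gamma0 M → A} (hz : z ∈ cocycles (resLow M ρA))
    {E : Submodule k (Gamma0 M → A)} (hz0 : z ∉ E ⊔ coboundaries (resLow M ρA))
    (heig : IsEigenClass ρA E z S c hS)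
    {ℓ₀ : ℕ} (hℓ₀S : ℓ₀ ∈ S) (hℓ₀3 : ((3 * M * D : ℕ) : ℤ) ∣ (ℓ₀ : ℤ) - 1)
    (hE : IsEisPart ρA E S hS hℓ₀S) (hℓ₀ : c ℓ₀ ≠ 2) :
    ∃ x : clH k (M * D), x ≠ 0 ∧
      ∀ (ℓ : ℕ) [NeZero ℓ], ℓ ∈ S → clT k (M * D) ℓ x = c ℓ • x := by
  have hnz : ∀ ℓ ∈ S, NeZero ℓ := fun ℓ hℓ => ⟨(hS ℓ hℓ).prime.ne_zero⟩
  have : NeZero ℓ₀ := hnz ℓ₀ hℓ₀S
  have h2 : IsUnit (2 : k) := isUnit_iff_ne_zero.mpr fun h => one_ne_zero
    (show (1 : k) = 0 by linear_combination h3 - h)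
  have hρQ : ∀ g ∈ CongruenceSubgroup.Gamma D, ρQ g = 1 := fun g hg => LinearMap.ext fun q => by
    obtain ⟨f, rfl⟩ := hπ q
    rw [← hπρ]
    exact congrArg π (funext fun j => by rw [permRepPi_apply, permRep_of_mem_Gamma hg]; rfl)
  set ρP := resLow M (permRep k D)
  set ρPJ := resLow M (permRepPi k D J)
  set σA := resLow M ρA
  set σQ := resLow M ρQ
  have hδ : ∀ {V : Type} [AddCommGroup V] [Module k V] (ρ : Representation k SL(2, ℤ) V),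
      (∀ g ∈ CongruenceSubgroup.Gamma D, ρ g = 1) → ∀ (ℓ : ℕ) [NeZero ℓ], ℓ ∈ S →
      ∀ (h : upperSub M ℓ) (v : V), (LinearMap.id : V →ₗ[k] V) (resLow M ρ (upperConj M ℓ h) v) =
        resLow M ρ (h : Gamma0 M) ((LinearMap.id : V →ₗ[k] V) v) :=
    fun ρ hρ ℓ _ hℓ h v => rep_upperConj ρ hρ (hS ℓ hℓ).cong_D h v
  -- the class in `Q` is not principal
  have hι' : ∀ (g : Gamma0 M) a, ι (σA g a) = σQ g (ι a) := fun g a => hιρ g a
  have hπ' : ∀ (g : Gamma0 M) f, π (ρPJ g f) = σQ g (π f) := fun g f => hπρ g f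
  set EQ : Submodule k (Gamma0 M → Q) := E.map (ι.compLeft (Gamma0 M)) ⊔ coboundaries σQ with hEQ
  have hcl0 : ι.compLeft (Gamma0 M) z ∉ EQ :=
    map_notMem_sup h3 hρQ ι hι hιρ hS hz0 heig hℓ₀S hℓ₀3 hE hℓ₀
  -- lift to the permutation module
  obtain ⟨w, hw, hwπ⟩ := exists_lift_cocycle (permRepPi k D J) ρQ (neg_one_mem_Gamma0 M) hfree h2
    (LinearMap.ext fun f => funext fun j => by rw [permRepPi_apply, permRep_neg_one]; rfl)
    π hπ hπρ (comp_mem_cocycles (σ := σQ) ι hι' hz)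
  set comb := combMap (M := M) π with hcombdef
  have hwj : ∀ j, (fun γ => w γ j) ∈ cocycles ρP := fun j g h => congrFun (hw g h) j
  -- crossed homomorphisms with closed evaluation
  let Z₁ : Submodule k (cocycles ρP) :=
    (clH k (M * D)).comap (evalBase (M := M) (D := D) (k := k))
  let g₁ : Z₁ →ₗ[k] clH k (M * D) :=
    ((evalBase (M := M) (D := D) (k := k)).comp Z₁.subtype).codRestrict _ fun z => z.2
  let gmap : (J → Z₁) →ₗ[k] (J → clH k (M * D)) := LinearMap.pi fun j => g₁.comp (LinearMap.proj j)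
  let hmap : (J → Z₁) →ₗ[k] (Gamma0 M → Q) ⧸ EQ :=
    EQ.mkQ.comp (comb.comp
      (LinearMap.pi fun j => (cocycles ρP).subtype.comp (Z₁.subtype.comp (LinearMap.proj j))))
  have hker : LinearMap.ker gmap ≤ LinearMap.ker hmap := fun v hv => by
    rw [LinearMap.mem_ker] at hv
    have h0 : ∀ j, (v j).1.1 ∈ coboundaries ρP := fun j =>
      mem_coboundaries_of_evalBase hMD (congrArg Subtype.val (congrFun hv j))
    choose b hb using fun j => (mem_coboundaries _).mp (h0 j)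
    refine (Submodule.Quotient.mk_eq_zero _).mpr ?_
    show comb (fun j => (v j).1.1) ∈ EQ
    refine Submodule.mem_sup_right ?_
    rw [hcombdef, combMap_apply]
    exact comp_mem_coboundaries (σ := σQ) π hπ'
      ((mem_coboundaries _).mpr ⟨b, fun g => funext fun j => hb j g⟩)
  -- the operators
  let I := {ℓ // ℓ ∈ S}
  have : ∀ i : I, NeZero i.1 := fun i => hnz i.1 i.2
  let TP : I → (Gamma0 M → ((SL(2, ℤ) ⧸ Gamma0 D) → k)) →ₗ[k]
      (Gamma0 M → ((SL(2, ℤ) ⧸ Gamma0 D) → k)) := fun i =>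
    heckeCoc (permRep k D) (hS i.1 i.2).prime (hS i.1 i.2).not_dvd
  have hTP : ∀ i z', z' ∈ cocycles ρP → TP i z' ∈ cocycles ρP := fun i z' hz' =>
    cocTransfer_mem_cocycles ρP _ _ _
      (hδ (permRep k D) (fun g hg => permRep_of_mem_Gamma hg) i.1 i.2) hz'
  let T' : I → Module.End k ((Gamma0 M → Q) ⧸ EQ) := fun i =>
    EQ.mapQ EQ (heckeCoc ρQ (hS i.1 i.2).prime (hS i.1 i.2).not_dvd) fun y hy => by
        rw [Submodule.mem_comap]
        obtain ⟨_, ⟨e, he, rfl⟩, b, hb, rfl⟩ := Submodule.mem_sup.mp hy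
        rw [map_add, heckeCoc_compLeft ι hιρ]
        exact add_mem (compLeft_mem_map_sup ι hιρ (hE.stable i.1 i.2 e he))
          (Submodule.mem_sup_right
            (cocTransfer_mem_coboundaries σQ _ _ _ (hδ ρQ hρQ i.1 i.2) hb))
  have hcombT : ∀ (i : I) (v : J → (Gamma0 M → ((SL(2, ℤ) ⧸ Gamma0 D) → k))),
      comb (fun j => TP i (v j)) =
        heckeCoc ρQ (hS i.1 i.2).prime (hS i.1 i.2).not_dvd (comb v) :=
    fun i => combMap_heckeCoc π hπρ (hS i.1 i.2).prime (hS i.1 i.2).not_dvd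
  let TV : I → Module.End k (J → clH k (M * D)) := fun i =>
    LinearMap.pi fun j => (clT k (M * D) i.1).comp (LinearMap.proj j)
  have hst : ∀ (i : I) (v : J → Z₁),
      ∃ v', gmap v' = TV i (gmap v) ∧ hmap v' = T' i (hmap v) := by
    intro i v
    have e := fun j =>
      evalBase_heckeCoc (hS i.1 i.2).prime (hS i.1 i.2).not_dvd (v j).1 (hTP i _ (v j).1.2)
    have hmem : ∀ j, (⟨_, hTP i _ (v j).1.2⟩ : cocycles ρP) ∈ Z₁ := fun j => by
      show evalBase _ ∈ clH k (M * D)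
      rw [e j]
      exact (clT k (M * D) i.1 ⟨_, (v j).2⟩).2
    refine ⟨fun j => ⟨_, hmem j⟩, funext fun j => Subtype.ext (e j), ?_⟩
    exact congrArg EQ.mkQ (hcombT i fun j => (v j).1.1)
  -- the closed vector
  have hℓ₀mem := hS ℓ₀ hℓ₀S
  let i₀ : I := ⟨ℓ₀, hℓ₀S⟩
  let w' : J → cocycles ρP := fun j =>
    ⟨_, hTP i₀ _ (hwj j)⟩ - ((ℓ₀ + 1 : ℕ) : k) • ⟨_, hwj j⟩
  have hw'Z : ∀ j, w' j ∈ Z₁ := fun j => by
    show evalBase (w' j) ∈ clH k (M * D)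
    rw [map_sub, map_smul,
      evalBase_heckeCoc hℓ₀mem.prime hℓ₀mem.not_dvd ⟨_, hwj j⟩ (hTP i₀ _ (hwj j))]
    exact isClHom_perTransfer_sub h2 hℓ₀mem.prime (cong_mul_of_cong_three hℓ₀3) hℓ₀mem.not_dvd
      (cast_eq_one_of_cong_three hℓ₀3 h3) (free_of_le (Ihara.Gamma0_le_mul M D) hfree) _
  set q : (Gamma0 M → Q) ⧸ EQ := EQ.mkQ (ι.compLeft (Gamma0 M) z)
  have hTq : ∀ i : I, T' i q = c i.1 • q := fun i => by
    rw [← sub_eq_zero]
    show EQ.mkQ (heckeCoc ρQ _ _ (ι.compLeft (Gamma0 M) z)) -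
      c i.1 • EQ.mkQ (ι.compLeft (Gamma0 M) z) = 0
    rw [← map_smul, ← map_sub, Submodule.mkQ_apply, Submodule.Quotient.mk_eq_zero,
      heckeCoc_compLeft ι hιρ, ← map_smul, ← map_sub]
    exact compLeft_mem_map_sup ι hιρ (heig i.1 i.2)
  have hfx : hmap (fun j => ⟨w' j, hw'Z j⟩) = (c ℓ₀ - 2) • q := by
    show EQ.mkQ (comb ((fun j => TP i₀ fun γ => w γ j) -
      ((ℓ₀ + 1 : ℕ) : k) • fun j γ => w γ j)) = _
    rw [map_sub, map_smul, hcombT i₀, show comb (fun j γ => w γ j) = ι.compLeft (Gamma0 M) z from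
        (combMap_apply π _).trans hwπ,
      map_sub, map_smul, sub_smul, Nat.cast_add, cast_eq_one_of_cong_three hℓ₀3 h3, Nat.cast_one,
      one_add_one_eq_two]
    exact congrArg (· - (2 : k) • q) (hTq i₀)
  have hq0 : q ≠ 0 := fun h => hcl0 ((Submodule.Quotient.mk_eq_zero _).mp h)
  have : Module.Finite k (clH k (M * D)) := module_finite_clH k
  have hcomm : ∀ i j x, TV i (TV j x) = TV j (TV i x) := fun i j u => funext fun a =>
    clT_comm k (hS i.1 i.2).prime (hS j.1 j.2).prime (u a)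
  have hx : hmap (fun j => ⟨w' j, hw'Z j⟩) ≠ 0 := by
    rw [hfx]; exact smul_ne_zero (sub_ne_zero.mpr hℓ₀) hq0
  have hex : ∀ i : I, T' i (hmap (fun j => ⟨w' j, hw'Z j⟩)) =
      c i.1 • hmap (fun j => ⟨w' j, hw'Z j⟩) := fun i => by
    rw [hfx, map_smul, hTq i, smul_comm]
  have hTV : ∀ (i : I) u j, TV i u j = clT k (M * D) i.1 (u j) := fun i u j => rfl
  clear_value T' hmap gmap q w' TV
  have key := exists_eigen_of_hom (ι := I) (k := k) (Z := J → Z₁)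
    (V := J → clH k (M * D)) (W := (Gamma0 M → Q) ⧸ EQ) TV hcomm T' gmap hmap
  obtain ⟨v, hv0, hv⟩ := key hker hst (fun i => c i.1) (fun j => ⟨w' j, hw'Z j⟩) hx hex
  obtain ⟨j, hj⟩ := Function.ne_iff.mp hv0
  refine ⟨v j, hj, fun ℓ _ hℓ => ?_⟩
  have h := congrFun (hv ⟨ℓ, hℓ⟩) j
  rwa [hTV] at h

end Fermat.Agent.Raising.SquareRemoval
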